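/-
P-ORD block (G-B), row ORD-GB-N6 N-DIV (helper56): the residual divisor on the two-component
fibre, abstract form.

`FibreAxN r sm Reg ordAt` axiomatises what is used of a nodal reduction: divisors of functions
exist; at a smooth point `x` of the special fibre a function `f` which is "regular" at `x`
(a unit of the Gauss ring of the component carrying `x`) satisfies the conservation law
`(r_* div f)(x) = ordAt x f`; quotients of regular functions are regular; at a non-smooth
point (a node) a regular function (glued unit at the node) without poles on the disc has no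
zero on the disc.  All the divisor bookkeeping is done fibre by fibre, exactly as in
`Fermat.Agent.H56.FF.residual_abstract`, with TWO pole points `Poo`, `P0`.
-/
import Fermat.Agent.H56.FF.ResDivAbs

set_option autoImplicit false
set_option linter.style.haveILetI false
set_option linter.unusedSectionVars false

noncomputable section

open AlgebraicCurve Fermat.Agent.H27.ESD Fermat.Agent.H94.FF Fermat.Agent.H56.FF

namespace Fermat.Agent.H56.ORD

open Classical

section OrdLemmas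

variable {K F : Type*} [Field K] [Field F] [Algebra K F]

theorem ord_ge_of_mem_rr_two (Poo P0 : Place K F) (n : ℕ) {f : F}
    (hf : f ∈ riemannRochSpace (Finsupp.single Poo (n : ℤ) + Finsupp.single P0 (n : ℤ)))
    (P : Place K F) :
    (if Poo = P then -(n : ℤ) else 0) + (if P0 = P then -(n : ℤ) else 0) ≤ P.ord f := by
  rcases (mem_riemannRochSpace_iff.mp hf) P with h | h
  · rw [h, Place.ord_zero]
    split_ifs <;> omega
  · rw [Finsupp.add_apply, Finsupp.single_apply, Finsupp.single_apply] at h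
    split_ifs at h ⊢ <;> omega

end OrdLemmas

section FibreN

variable {K F X : Type*} [Field K] [Field F] [Algebra K F]

/-- what is used of a nodal reduction -/
structure FibreAxN (r : Place K F → X) (sm : X → Prop) (Reg : X → F → Prop)
    (ordAt : X → F → ℤ) : Prop where
  hdiv : ∀ f : F, f ≠ 0 → ∃ D : Divisor K F, ∀ P, D P = P.ord f
  ne_zero : ∀ x f, Reg x f → f ≠ 0
  cons : ∀ x f, sm x → Reg x f → ∀ D : Divisor K F, (∀ P, D P = P.ord f) →
    Finsupp.mapDomain r D x = ordAt x f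
  div : ∀ x f h, sm x → Reg x f → Reg x h →
    Reg x (f * h⁻¹) ∧ ordAt x (f * h⁻¹) = ordAt x f - ordAt x h
  node : ∀ x f, ¬ sm x → Reg x f → (∀ P, r P = x → 0 ≤ P.ord f) → ∀ P, r P = x → P.ord f = 0

variable {r : Place K F → X} {sm : X → Prop} {Reg : X → F → Prop} {ordAt : X → F → ℤ}

/-- **general fibre lemma** -/
theorem FibreAxN.ord_eq_of_le (H : FibreAxN r sm Reg ordAt) (x : X) (hx : sm x) (f : F)
    (hf : Reg x f) (C : Divisor K F) (hle : ∀ P, r P = x → C P ≤ P.ord f)
    (hsum : Finsupp.mapDomain r C x = ordAt x f) (P : Place K F) (hP : r P = x) :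
    P.ord f = C P := by
  obtain ⟨D, hD⟩ := H.hdiv _ (H.ne_zero x f hf)
  have h1 := H.cons x f hx hf D hD
  have h2 := Fermat.Agent.H18.rv_le_mapDomain r (D - C) x P hP (fun P1 h => by
    rw [Finsupp.sub_apply, hD]
    have := hle P1 h
    omega)
  simp only [Finsupp.mapDomain_sub, Finsupp.sub_apply] at h2
  rw [h1, hsum, sub_self, hD] at h2
  have := hle P hP
  omega

theorem FibreAxN.ord_eq_single (H : FibreAxN r sm Reg ordAt) (x : X) (hx : sm x) (f : F)
    (hf : Reg x f) (P₀ : Place K F) (hP₀ : r P₀ = x) (n : ℤ) (hn : ordAt x f = n)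
    (hle : ∀ P, r P = x → (if P₀ = P then n else 0) ≤ P.ord f)
    (P : Place K F) (hP : r P = x) : P.ord f = if P₀ = P then n else 0 := by
  classical
  have h1 := H.ord_eq_of_le x hx f hf (Finsupp.single P₀ n)
    (fun P1 h1 => by rw [Finsupp.single_apply]; exact hle P1 h1)
    (by rw [Finsupp.mapDomain_single, hP₀, Finsupp.single_eq_same, hn]) P hP
  rw [h1, Finsupp.single_apply]

theorem FibreAxN.ord_eq_zero (H : FibreAxN r sm Reg ordAt) (x : X) (hx : sm x) (f : F)
    (hf : Reg x f) (h0 : ordAt x f = 0) (hnp : ∀ P, r P = x → 0 ≤ P.ord f)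
    (P : Place K F) (hP : r P = x) : P.ord f = 0 := by
  have h1 := H.ord_eq_of_le x hx f hf 0
    (fun P1 h1 => by rw [Finsupp.zero_apply]; exact hnp P1 h1)
    (by rw [Finsupp.mapDomain_zero, Finsupp.zero_apply, h0]) P hP
  rw [h1, Finsupp.zero_apply]

/-- existence of a zero in the disc of a zero of the reduction -/
theorem FibreAxN.exists_zero (H : FibreAxN r sm Reg ordAt) (x : X) (hx : sm x) (f : F)
    (hf : Reg x f) (h1 : ordAt x f = 1) (hnp : ∀ P, r P = x → 0 ≤ P.ord f) :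
    ∃ P₀, r P₀ = x ∧ 1 ≤ P₀.ord f := by
  by_contra hcon
  simp only [not_exists, not_and, not_le] at hcon
  obtain ⟨D, hD⟩ := H.hdiv _ (H.ne_zero x f hf)
  have h2 := H.cons x f hx hf D hD
  have h3 := Fermat.Agent.H18.rv_mapDomain_nonneg_fibre r (-D) x (fun P hP => by
    rw [Finsupp.neg_apply, hD]
    have := hcon P hP
    have := hnp P hP
    omega)
  rw [← Finsupp.mapDomain.addMonoidHom_apply, map_neg, Finsupp.mapDomain.addMonoidHom_apply,
    Finsupp.neg_apply, h2, h1] at h3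
  omega

/-- **N-DIV, abstract form.** -/
theorem residualN_abstract {g : ℕ} (H : FibreAxN r sm Reg ordAt)
    (Qs : Fin g → X) (hQinj : Function.Injective Qs) (hQsm : ∀ i, sm (Qs i))
    (O : Fin g → Place K F) (t : Fin g → F)
    (hO : ∀ i, r (O i) = Qs i) (ht1 : ∀ i, 1 ≤ (O i).ord (t i))
    (htR : ∀ i, Reg (Qs i) (t i))
    (ht2 : ∀ i, ordAt (Qs i) (t i) = 1)
    (ht3 : ∀ i P1, r P1 = Qs i → 0 ≤ P1.ord (t i))
    (Poo P0 : Place K F) (hsmoo : sm (r Poo)) (hsm0 : sm (r P0)) (hne : r Poo ≠ r P0)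
    (nn : Fin g ⊕ Fin g → ℕ) (v : Fin g ⊕ Fin g → F)
    (Zx : Fin g ⊕ Fin g → Finset X)
    (hvL : ∀ a, v a ∈ riemannRochSpace
      (Finsupp.single Poo (nn a : ℤ) + Finsupp.single P0 (nn a : ℤ)))
    (hvR : ∀ a x, Reg x (v a))
    (hQne : ∀ i, Qs i ≠ r Poo ∧ Qs i ≠ r P0)
    (hpole : ∀ a, ordAt (r Poo) (v a) = -(nn a : ℤ) ∧ ordAt (r P0) (v a) = -(nn a : ℤ))
    (hzmain : ∀ a, ordAt (Qs (jproj a)) (v a) = 1)
    (hzextra : ∀ a, ∀ x ∈ Zx a, ordAt x (v a) = 1)
    (hzelse : ∀ a x, sm x → x ≠ r Poo → x ≠ r P0 → x ≠ Qs (jproj a) → x ∉ Zx a →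
      ordAt x (v a) = 0)
    (hsmx : ∀ a, ∀ x ∈ Zx a, sm x)
    (hnotMem : ∀ a, r Poo ∉ Zx a ∧ r P0 ∉ Zx a)
    (hqsnm : ∀ a i, Qs i ∉ Zx a)
    (hdisj : ∀ a b, a ≠ b → Disjoint (Zx a) (Zx b))
    (Pt : Fin g ⊕ Fin g → Place K F) (hPt : ∀ a, r (Pt a) = Qs (jproj a))
    (hvPt : ∀ a, 1 ≤ (Pt a).ord (v a))
    (F2 : F)
    (hF2L : F2 ∈ riemannRochSpace (Finsupp.single Poo (((∑ a, nn a : ℕ)) : ℤ) +
      Finsupp.single P0 (((∑ a, nn a : ℕ)) : ℤ)))
    (hF2R : ∀ x, Reg x F2)
    (hordF : ∀ x, sm x → ordAt x F2 = ∑ a, ordAt x (v a))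
    (hF2O : ∀ i, 1 ≤ (O i).ord F2)
    (hF2E : ∀ a, ∀ x ∈ Zx a, ∀ P1, r P1 = x → 1 ≤ P1.ord (v a) → 1 ≤ P1.ord F2) :
    ∃ P'' : Fin g → Place K F, (∀ i, r (P'' i) = Qs i) ∧
      (∀ i, 1 ≤ (P'' i).ord (F2 * (t i)⁻¹)) ∧
      ∃ w : F, w ≠ 0 ∧ ∀ P : Place K F,
        P.ord w = ((∑ i, (Finsupp.single (P'' i) (1 : ℤ) - Finsupp.single (O i) 1)
          - ∑ a, (Finsupp.single (Pt a) (1 : ℤ) - Finsupp.single (O (jproj a)) 1) :
            Divisor K F)) P := by
  -- nonvanishing
  have hvF : ∀ a, v a ≠ 0 := fun a => H.ne_zero _ _ (hvR a (r Poo))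
  have hprodF : ∏ a, v a ≠ 0 := Finset.prod_ne_zero_iff.mpr fun a _ => hvF a
  have hF2F : F2 ≠ 0 := H.ne_zero _ _ (hF2R (r Poo))
  have htF : ∀ i, t i ≠ 0 := fun i => H.ne_zero _ _ (htR i)
  have hPne : Poo ≠ P0 := fun h => hne (by rw [h])
  -- no poles away from `Poo`, `P0`
  have hnpv : ∀ a P, P ≠ Poo → P ≠ P0 → 0 ≤ P.ord (v a) := fun a P hP hP' => by
    have h1 := ord_ge_of_mem_rr_two Poo P0 (nn a) (hvL a) P
    rwa [if_neg (Ne.symm hP), if_neg (Ne.symm hP'), add_zero] at h1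
  have hnpF : ∀ P, P ≠ Poo → P ≠ P0 → 0 ≤ P.ord F2 := fun P hP hP' => by
    have h1 := ord_ge_of_mem_rr_two Poo P0 _ hF2L P
    rwa [if_neg (Ne.symm hP), if_neg (Ne.symm hP'), add_zero] at h1
  have hne_oo : ∀ P, r P ≠ r Poo → P ≠ Poo := fun P h h' => h (by rw [h'])
  have hne_0 : ∀ P, r P ≠ r P0 → P ≠ P0 := fun P h h' => h (by rw [h'])
  -- the reductions at `Qs i`
  have hordQs : ∀ a i, ordAt (Qs i) (v a) = if jproj a = i then 1 else 0 := by
    intro a i
    split_ifs with h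
    · rw [← h]
      exact hzmain a
    · exact hzelse a (Qs i) (hQsm i) (hQne i).1 (hQne i).2 (fun h' => h (hQinj h').symm)
        (hqsnm a i)
  have hordFQs : ∀ i, ordAt (Qs i) F2 = 2 := by
    intro i
    rw [hordF _ (hQsm i)]
    simp only [hordQs]
    rw [sum_jproj_ite i (fun _ => (1 : ℤ))]
    norm_num
  -- the coordinate `t i` on the disc of `Qs i`
  have hordt : ∀ i P, r P = Qs i → P.ord (t i) = if O i = P then 1 else 0 := by
    intro i P hP
    refine H.ord_eq_single (Qs i) (hQsm i) (t i) (htR i) (O i) (hO i) 1 (ht2 i)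
      (fun P1 hP1 => ?_) P hP
    split_ifs with h
    · rw [← h]
      exact ht1 i
    · exact ht3 i P1 hP1
  -- `G i = F2 / t i`
  have hGR : ∀ i, Reg (Qs i) (F2 * (t i)⁻¹) := fun i =>
    (H.div (Qs i) F2 (t i) (hQsm i) (hF2R _) (htR i)).1
  have hGord : ∀ i, ordAt (Qs i) (F2 * (t i)⁻¹) = 1 := fun i => by
    rw [(H.div (Qs i) F2 (t i) (hQsm i) (hF2R _) (htR i)).2, hordFQs, ht2]
    norm_num
  have hGF : ∀ (i : Fin g) (P : Place K F),
      P.ord (F2 * (t i)⁻¹) = P.ord F2 - P.ord (t i) := fun i P =>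
    ord_mul_inv P hF2F (htF i)
  have hGnp : ∀ i P, r P = Qs i → 0 ≤ P.ord (F2 * (t i)⁻¹) := by
    intro i P hP
    rw [hGF, hordt i P hP]
    split_ifs with h
    · have h1 := hF2O i
      rw [h] at h1
      omega
    · have h1 := hnpF P (hne_oo P (by rw [hP]; exact (hQne i).1))
        (hne_0 P (by rw [hP]; exact (hQne i).2))
      omega
  choose P'' hP''r hP''1 using fun i =>
    H.exists_zero (Qs i) (hQsm i) (F2 * (t i)⁻¹) (hGR i) (hGord i) (hGnp i)
  have hordG : ∀ i P, r P = Qs i →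
      P.ord (F2 * (t i)⁻¹) = if P'' i = P then 1 else 0 := by
    intro i P hP
    refine H.ord_eq_single (Qs i) (hQsm i) _ (hGR i) (P'' i) (hP''r i) 1 (hGord i)
      (fun P1 hP1 => ?_) P hP
    split_ifs with h
    · rw [← h]
      exact hP''1 i
    · exact hGnp i P1 hP1
  have hordF2Qs : ∀ i P, r P = Qs i →
      P.ord F2 = (if P'' i = P then 1 else 0) + (if O i = P then 1 else 0) := by
    intro i P hP
    have h1 := hGF i P
    rw [hordG i P hP, hordt i P hP] at h1
    omega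
  -- the `v a` on the disc of `Qs i`
  have hordvQs : ∀ a i P, r P = Qs i →
      P.ord (v a) = if jproj a = i then (if Pt a = P then 1 else 0) else 0 := by
    intro a i P hP
    have hnp : ∀ P1, r P1 = Qs i → 0 ≤ P1.ord (v a) := fun P1 hP1 =>
      hnpv a P1 (hne_oo P1 (by rw [hP1]; exact (hQne i).1))
        (hne_0 P1 (by rw [hP1]; exact (hQne i).2))
    by_cases h : jproj a = i
    · rw [if_pos h]
      refine H.ord_eq_single (Qs i) (hQsm i) (v a) (hvR a _) (Pt a) (by rw [hPt, h]) 1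
        (by rw [hordQs, if_pos h]) (fun P1 hP1 => ?_) P hP
      split_ifs with h1
      · rw [← h1]
        exact hvPt a
      · exact hnp P1 hP1
    · rw [if_neg h]
      exact H.ord_eq_zero (Qs i) (hQsm i) (v a) (hvR a _) (by rw [hordQs, if_neg h]) hnp P hP
  -- the disc of `r Poo`
  have hleoo : ∀ (n : ℕ) (f : F), f ∈ riemannRochSpace
      (Finsupp.single Poo (n : ℤ) + Finsupp.single P0 (n : ℤ)) → ∀ P1, r P1 = r Poo →
      (if Poo = P1 then -(n : ℤ) else 0) ≤ P1.ord f := by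
    intro n f hf P1 hP1
    have h1 := ord_ge_of_mem_rr_two Poo P0 n hf P1
    have h2 : P0 ≠ P1 := fun h => hne (by rw [← hP1, h])
    rwa [if_neg h2, add_zero] at h1
  have hle0 : ∀ (n : ℕ) (f : F), f ∈ riemannRochSpace
      (Finsupp.single Poo (n : ℤ) + Finsupp.single P0 (n : ℤ)) → ∀ P1, r P1 = r P0 →
      (if P0 = P1 then -(n : ℤ) else 0) ≤ P1.ord f := by
    intro n f hf P1 hP1
    have h1 := ord_ge_of_mem_rr_two Poo P0 n hf P1
    have h2 : Poo ≠ P1 := fun h => hne (by rw [← hP1, h])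
    rwa [if_neg h2, zero_add] at h1
  have hordvOo : ∀ a P, r P = r Poo →
      P.ord (v a) = if Poo = P then -(nn a : ℤ) else 0 := by
    intro a P hP
    exact H.ord_eq_single (r Poo) hsmoo (v a) (hvR a _) Poo rfl _ (hpole a).1
      (hleoo (nn a) (v a) (hvL a)) P hP
  have hordvZ : ∀ a P, r P = r P0 →
      P.ord (v a) = if P0 = P then -(nn a : ℤ) else 0 := by
    intro a P hP
    exact H.ord_eq_single (r P0) hsm0 (v a) (hvR a _) P0 rfl _ (hpole a).2
      (hle0 (nn a) (v a) (hvL a)) P hP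
  have hordFOo : ∀ P, r P = r Poo →
      P.ord F2 = if Poo = P then -((∑ a, nn a : ℕ) : ℤ) else 0 := by
    intro P hP
    refine H.ord_eq_single (r Poo) hsmoo F2 (hF2R _) Poo rfl _ ?_
      (hleoo _ F2 hF2L) P hP
    rw [hordF _ hsmoo]
    simp only [(hpole _).1]
    push_cast
    rw [Finset.sum_neg_distrib]
  have hordFZ : ∀ P, r P = r P0 →
      P.ord F2 = if P0 = P then -((∑ a, nn a : ℕ) : ℤ) else 0 := by
    intro P hP
    refine H.ord_eq_single (r P0) hsm0 F2 (hF2R _) P0 rfl _ ?_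
      (hle0 _ F2 hF2L) P hP
    rw [hordF _ hsm0]
    simp only [(hpole _).2]
    push_cast
    rw [Finset.sum_neg_distrib]
  -- the discs of the extra zeros
  have hZx_ne_oo : ∀ a₀ x, x ∈ Zx a₀ → x ≠ r Poo := by
    rintro a₀ x hx rfl
    exact (hnotMem a₀).1 hx
  have hZx_ne_0 : ∀ a₀ x, x ∈ Zx a₀ → x ≠ r P0 := by
    rintro a₀ x hx rfl
    exact (hnotMem a₀).2 hx
  have hordZx : ∀ a₀ x, x ∈ Zx a₀ → ∀ a, ordAt x (v a) = if a = a₀ then 1 else 0 := by
    intro a₀ x hx a
    split_ifs with h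
    · subst h
      exact hzextra a x hx
    · refine hzelse a x (hsmx a₀ x hx) (hZx_ne_oo a₀ x hx) (hZx_ne_0 a₀ x hx) ?_ ?_
      · rintro rfl
        exact hqsnm a₀ _ hx
      · intro hmem
        exact Finset.disjoint_left.mp (hdisj a a₀ h) hmem hx
  have hEx : ∀ a₀ x, x ∈ Zx a₀ → ∃ E, r E = x ∧ 1 ≤ E.ord (v a₀) := by
    intro a₀ x hx
    exact H.exists_zero x (hsmx a₀ x hx) (v a₀) (hvR a₀ _)
      (by rw [hordZx a₀ x hx, if_pos rfl])
      (fun P1 hP1 => hnpv a₀ P1 (hne_oo P1 (by rw [hP1]; exact hZx_ne_oo a₀ x hx))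
        (hne_0 P1 (by rw [hP1]; exact hZx_ne_0 a₀ x hx)))
  -- conclusion
  refine ⟨P'', hP''r, hP''1, ?_⟩
  refine ⟨F2 * (∏ a, v a)⁻¹, mul_ne_zero hF2F (inv_ne_zero hprodF), fun P => ?_⟩
  rw [ord_mul_inv P hF2F hprodF, ord_prod_of_ne_zero P _ _ (fun a _ => hvF a)]
  simp only [Finsupp.sub_apply, Finsupp.finsetSum_apply, Finsupp.single_apply]
  by_cases hQ : ∃ i, r P = Qs i
  · obtain ⟨i, hi⟩ := hQ
    rw [hordF2Qs i P hi]
    simp only [hordvQs _ i P hi]
    rw [sum_jproj_ite i (fun a => if Pt a = P then (1 : ℤ) else 0)]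
    have e1 : ∑ j, ((if P'' j = P then (1 : ℤ) else 0) - (if O j = P then 1 else 0)) =
        (if P'' i = P then 1 else 0) - (if O i = P then 1 else 0) := by
      refine Finset.sum_eq_single i (fun j _ hji => ?_) (fun h => absurd (Finset.mem_univ i) h)
      have h1 : P'' j ≠ P := fun h => hji (hQinj (by rw [← hP''r j, h, hi]))
      have h2 : O j ≠ P := fun h => hji (hQinj (by rw [← hO j, h, hi]))
      rw [if_neg h1, if_neg h2, sub_zero]
    have e2 : ∑ a, ((if Pt a = P then (1 : ℤ) else 0) - (if O (jproj a) = P then 1 else 0)) =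
        ∑ a, (if jproj a = i then
          ((if Pt a = P then (1 : ℤ) else 0) - (if O i = P then 1 else 0)) else 0) := by
      refine Finset.sum_congr rfl fun a _ => ?_
      by_cases h : jproj a = i
      · rw [if_pos h, h]
      · rw [if_neg h]
        have h1 : Pt a ≠ P := fun h' => h (hQinj (by rw [← hPt a, h', hi]))
        have h2 : O (jproj a) ≠ P := fun h' => h (hQinj (by rw [← hO (jproj a), h', hi]))
        rw [if_neg h1, if_neg h2, sub_zero]
    rw [e1, e2, sum_jproj_ite i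
      (fun a => (if Pt a = P then (1 : ℤ) else 0) - (if O i = P then 1 else 0))]
    ring
  · have hQ' : ∀ i, r P ≠ Qs i := fun i h => hQ ⟨i, h⟩
    have e1 : ∑ j, ((if P'' j = P then (1 : ℤ) else 0) - (if O j = P then 1 else 0)) = 0 :=
      Finset.sum_eq_zero fun j _ => by
        have h1 : P'' j ≠ P := fun h => hQ' j (by rw [← h, hP''r])
        have h2 : O j ≠ P := fun h => hQ' j (by rw [← h, hO])
        rw [if_neg h1, if_neg h2, sub_zero]
    have e2 : ∑ a, ((if Pt a = P then (1 : ℤ) else 0) -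
        (if O (jproj a) = P then 1 else 0)) = 0 :=
      Finset.sum_eq_zero fun a _ => by
        have h1 : Pt a ≠ P := fun h => hQ' (jproj a) (by rw [← h, hPt])
        have h2 : O (jproj a) ≠ P := fun h => hQ' (jproj a) (by rw [← h, hO])
        rw [if_neg h1, if_neg h2, sub_zero]
    rw [e1, e2, sub_zero]
    by_cases hoo : r P = r Poo
    · rw [hordFOo P hoo]
      simp only [hordvOo _ P hoo]
      split_ifs with h
      · push_cast
        rw [Finset.sum_neg_distrib]
        ring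
      · simp
    by_cases hzz : r P = r P0
    · rw [hordFZ P hzz]
      simp only [hordvZ _ P hzz]
      split_ifs with h
      · push_cast
        rw [Finset.sum_neg_distrib]
        ring
      · simp
    have hnp : ∀ a P1, r P1 = r P → 0 ≤ P1.ord (v a) := fun a P1 hP1 =>
      hnpv a P1 (hne_oo P1 (by rw [hP1]; exact hoo)) (hne_0 P1 (by rw [hP1]; exact hzz))
    have hnpF' : ∀ P1, r P1 = r P → 0 ≤ P1.ord F2 := fun P1 hP1 =>
      hnpF P1 (hne_oo P1 (by rw [hP1]; exact hoo)) (hne_0 P1 (by rw [hP1]; exact hzz))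
    by_cases hz : ∃ a₀, r P ∈ Zx a₀
    · obtain ⟨a₀, ha₀⟩ := hz
      have hsmP : sm (r P) := hsmx a₀ _ ha₀
      obtain ⟨E, hEr, hE1⟩ := hEx a₀ (r P) ha₀
      have hva : ∀ a, P.ord (v a) = if a = a₀ then (if E = P then 1 else 0) else 0 := by
        intro a
        by_cases h : a = a₀
        · subst h
          rw [if_pos rfl]
          refine H.ord_eq_single (r P) hsmP (v a) (hvR a _) E hEr 1
            (by rw [hordZx a (r P) ha₀, if_pos rfl]) (fun P1 hP1 => ?_) P rfl
          split_ifs with h1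
          · rw [← h1]
            exact hE1
          · exact hnp a P1 hP1
        · rw [if_neg h]
          exact H.ord_eq_zero (r P) hsmP (v a) (hvR a _)
            (by rw [hordZx a₀ (r P) ha₀, if_neg h]) (hnp a) P rfl
      have hF2 : P.ord F2 = if E = P then 1 else 0 := by
        refine H.ord_eq_single (r P) hsmP F2 (hF2R _) E hEr 1 ?_ (fun P1 hP1 => ?_) P rfl
        · rw [hordF _ hsmP]
          simp only [hordZx a₀ (r P) ha₀]
          rw [Finset.sum_ite_eq', if_pos (Finset.mem_univ a₀)]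
        · split_ifs with h1
          · rw [← h1]
            exact hF2E a₀ (r P) ha₀ E hEr hE1
          · exact hnpF' P1 hP1
      rw [hF2]
      simp only [hva]
      rw [Finset.sum_ite_eq', if_pos (Finset.mem_univ a₀), sub_self]
    · have hz' : ∀ a, r P ∉ Zx a := fun a h => hz ⟨a, h⟩
      by_cases hsmP : sm (r P)
      · have h0 : ∀ a, ordAt (r P) (v a) = 0 := fun a =>
          hzelse a (r P) hsmP hoo hzz (fun h => hQ' (jproj a) h) (hz' a)
        have hva : ∀ a, P.ord (v a) = 0 := fun a =>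
          H.ord_eq_zero (r P) hsmP (v a) (hvR a _) (h0 a) (hnp a) P rfl
        have hF2 : P.ord F2 = 0 :=
          H.ord_eq_zero (r P) hsmP F2 (hF2R _) (by rw [hordF _ hsmP]; simp only [h0]; simp)
            hnpF' P rfl
        rw [hF2]
        simp only [hva]
        simp
      · have hva : ∀ a, P.ord (v a) = 0 := fun a =>
          H.node (r P) (v a) hsmP (hvR a _) (hnp a) P rfl
        have hF2 : P.ord F2 = 0 := H.node (r P) F2 hsmP (hF2R _) hnpF' P rfl
        rw [hF2]
        simp only [hva]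
        simp

end FibreN

end Fermat.Agent.H56.ORD
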