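/-
P-ORD block (G-B), row ORD-GB-N6 N-DIV (helper56): the residual divisor on the two-component
fibre.

`residualDivisorN : Fermat.Agent.H94.ORD.ResidualDivisorN` (unconditional), by instantiating
the abstract fibre-by-fibre bookkeeping of `ResDivNAbs` at a nodal reduction:
smooth points use the conservation law (M2), the nodes use the strict slope inequality (M3)
(`NodalRvHyp.node_lt` with `c = 1` : a glued unit at a node has no zero on the disc of the
node).
-/
import Fermat.Agent.H94.ORD.JacGlue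
import Fermat.Agent.H56.ORD.ResDivNAbs

set_option autoImplicit false
set_option synthInstance.maxHeartbeats 400000
set_option maxHeartbeats 1600000
set_option linter.style.haveILetI false
set_option linter.unusedSectionVars false

noncomputable section

open AlgebraicCurve ModularCurve Fermat.Agent.H27.ESD

namespace Fermat.Agent.H56.ORD

open Fermat.Agent.H10.FF Fermat.Agent.H72.FF Fermat.Agent.H18.ORD Fermat.Agent.H92.ORD
  Fermat.Agent.H94.FF Fermat.Agent.H94.ORD Fermat.Agent.H56.FF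

variable {N p : ℕ} {A : ValuationSubring Qb} {Foo F0 : Type} [Field Foo] [Field F0]
  [Algebra (kRes A) Foo] [Algebra (kRes A) F0] {ι : Type} {G : NodalData N A Foo F0 ι} {g : ℕ}

/-- "`f` is a unit at the point `x` of the special fibre": a unit of the Gauss ring of the
component carrying `x`; at a node, a unit of both Gauss rings whose reductions have order `0`
on both branches. -/
def RegN (G : NodalData N A Foo F0 ι) : NP A Foo F0 ι → FLb N → Prop
  | NPt.oo _, f => ∃ h : f ∈ G.Voo, G.redOo ⟨f, h⟩ ≠ 0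
  | NPt.zero _, f => ∃ h : f ∈ G.V0, G.red0 ⟨f, h⟩ ≠ 0
  | NPt.node ν, f => ∃ (h : f ∈ G.Voo) (h0 : f ∈ G.V0), G.redOo ⟨f, h⟩ ≠ 0 ∧
      G.red0 ⟨f, h0⟩ ≠ 0 ∧ (G.nOo ν).ord (G.redOo ⟨f, h⟩) = 0 ∧
      (G.n0 ν).ord (G.red0 ⟨f, h0⟩) = 0

theorem rdn_ne_zero_oo {f : FLb N} (h : f ∈ G.Voo) (hr : G.redOo ⟨f, h⟩ ≠ 0) : f ≠ 0 := by
  intro h0
  apply hr
  have : (⟨f, h⟩ : G.Voo) = 0 := Subtype.ext h0
  rw [this, map_zero]

theorem rdn_ne_zero_zero {f : FLb N} (h : f ∈ G.V0) (hr : G.red0 ⟨f, h⟩ ≠ 0) : f ≠ 0 := by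
  intro h0
  apply hr
  have : (⟨f, h⟩ : G.V0) = 0 := Subtype.ext h0
  rw [this, map_zero]

theorem rdn_one_notMem_nonunits : (1 : Qb) ∉ A.nonunits := by
  intro h
  rw [ValuationSubring.mem_nonunits_iff, map_one] at h
  exact lt_irrefl _ h

/-- a nodal reduction satisfies the fibre axioms -/
theorem fibreAxN_nodal (hS : NodalSetup N p A G g) :
    FibreAxN G.r (IsSm G) (RegN G) (ordC G) where
  hdiv := fun f hf => by
    obtain ⟨D, hD, -⟩ := hS.pkgL.principal.exists_divisor f hf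
    exact ⟨D, hD⟩
  ne_zero := by
    intro x f hf
    rcases x with Q | Q | ν
    · obtain ⟨h, hr⟩ := hf
      exact rdn_ne_zero_oo h hr
    · obtain ⟨h, hr⟩ := hf
      exact rdn_ne_zero_zero h hr
    · obtain ⟨h, -, hr, -⟩ := hf
      exact rdn_ne_zero_oo h hr
  cons := by
    intro x f hx hf D hD
    rcases x with Q | Q | ν
    · obtain ⟨h, hr⟩ := hf
      rw [ordC_oo Q f h]
      exact hS.rv.smooth_oo ⟨f, h⟩ hr D hD Q hx
    · obtain ⟨h, hr⟩ := hf
      rw [ordC_zero Q f h]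
      exact hS.rv.smooth_zero ⟨f, h⟩ hr D hD Q hx
    · exact hx.elim
  div := by
    intro x f h hx hf hh
    rcases x with Q | Q | ν
    · obtain ⟨hfm, hfr⟩ := hf
      obtain ⟨hhm, hhr⟩ := hh
      have hinv : h⁻¹ ∈ G.Voo := hS.rv.inv_oo ⟨h, hhm⟩ hhr
      have hm : f * h⁻¹ ∈ G.Voo := G.Voo.mul_mem hfm hinv
      have hh0 : h ≠ 0 := rdn_ne_zero_oo hhm hhr
      have e : (⟨f * h⁻¹, hm⟩ : G.Voo) * ⟨h, hhm⟩ = ⟨f, hfm⟩ := Subtype.ext (by
        show f * h⁻¹ * h = f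
        rw [mul_assoc, inv_mul_cancel₀ hh0, mul_one])
      have e2 := congrArg G.redOo e
      rw [map_mul] at e2
      have hr : G.redOo ⟨f * h⁻¹, hm⟩ ≠ 0 := fun h0 => by
        rw [h0, zero_mul] at e2
        exact hfr e2.symm
      refine ⟨⟨hm, hr⟩, ?_⟩
      rw [ordC_oo Q _ hm, ordC_oo Q _ hfm, ordC_oo Q _ hhm, ← e2, Q.ord_mul hr hhr]
      ring
    · obtain ⟨hfm, hfr⟩ := hf
      obtain ⟨hhm, hhr⟩ := hh
      have hinv : h⁻¹ ∈ G.V0 := hS.rv.inv_zero ⟨h, hhm⟩ hhr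
      have hm : f * h⁻¹ ∈ G.V0 := G.V0.mul_mem hfm hinv
      have hh0 : h ≠ 0 := rdn_ne_zero_zero hhm hhr
      have e : (⟨f * h⁻¹, hm⟩ : G.V0) * ⟨h, hhm⟩ = ⟨f, hfm⟩ := Subtype.ext (by
        show f * h⁻¹ * h = f
        rw [mul_assoc, inv_mul_cancel₀ hh0, mul_one])
      have e2 := congrArg G.red0 e
      rw [map_mul] at e2
      have hr : G.red0 ⟨f * h⁻¹, hm⟩ ≠ 0 := fun h0 => by
        rw [h0, zero_mul] at e2
        exact hfr e2.symm
      refine ⟨⟨hm, hr⟩, ?_⟩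
      rw [ordC_zero Q _ hm, ordC_zero Q _ hfm, ordC_zero Q _ hhm, ← e2, Q.ord_mul hr hhr]
      ring
    · exact hx.elim
  node := by
    intro x f hx hf hnp P hP
    rcases x with Q | Q | ν
    · exact absurd (hS.rv.r_oo P Q hP) hx
    · exact absurd (hS.rv.r_zero P Q hP) hx
    · obtain ⟨h, h0, hr, hr0, ho, -⟩ := hf
      by_contra hne
      have hpos : 0 < P.ord f := lt_of_le_of_ne (hnp P hP) (Ne.symm hne)
      have h1 := (hS.rv.node_lt ⟨f, h⟩ ⟨f, h0⟩ 1 hr hr0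
        (by show f = algebraMap Qb (FLb N) 1 * f; rw [map_one, one_mul]) ν hnp
        ⟨P, hP, hpos⟩).1
      rw [ho, zpow_zero, one_mul] at h1
      exact rdn_one_notMem_nonunits h1

/-- constants lie in the Riemann-Roch space of an effective divisor `n Poo + n P0` -/
theorem rdn_const_mem_rr (Poo P0 : Place Qb (FLb N)) (n : ℕ) (c : Qb) :
    algebraMap Qb (FLb N) c ∈ riemannRochSpace
      (Finsupp.single Poo (n : ℤ) + Finsupp.single P0 (n : ℤ)) := by
  classical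
  rw [mem_riemannRochSpace_iff]
  intro w
  right
  rw [Fermat.Agent.H23.ord_algebraMap, Finsupp.add_apply, Finsupp.single_apply,
    Finsupp.single_apply]
  split_ifs <;> omega

theorem rdn_ord_of_hasValue_zero {P : Place Qb (FLb N)} {f : FLb N} (hf : f ≠ 0)
    (h : HasValue P f 0) : 1 ≤ P.ord f := by
  rcases h with h | h
  · rw [map_zero] at h
    exact absurd h hf
  · rwa [map_zero, sub_zero] at h

/-- **N-DIV** (row ORD-GB-N6), with the data as variables. -/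
theorem residualN_nodal (hS : NodalSetup N p A G g)
    (O : Fin g → Place Qb (FLb N)) (t : Fin g → FLb N) (hsys : IsNodalJacSystem G g O t)
    (Poo P0 : Place Qb (FLb N)) (Qoo : Place (kRes A) Foo) (Q0 : Place (kRes A) F0)
    (nn : Fin g ⊕ Fin g → ℕ) (u : Fin g ⊕ Fin g → nodalO G)
    (Zx : Fin g ⊕ Fin g → Finset (NP A Foo F0 ι))
    (hPoo : G.r Poo = NPt.oo Qoo) (hP0 : G.r P0 = NPt.zero Q0)
    (huL : ∀ a, (u a : FLb N) ∈ riemannRochSpace
      (Finsupp.single Poo (nn a : ℤ) + Finsupp.single P0 (nn a : ℤ)))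
    (hAux : IsAuxFamilyN G (fun i => G.r (O i)) Qoo Q0 nn (fun a => redOoO G (u a))
      (fun a => red0O G (u a)) Zx)
    (Pt : Fin g ⊕ Fin g → Place Qb (FLb N)) (α : Fin g ⊕ Fin g → A)
    (hPt : ∀ a, G.r (Pt a) = G.r (O (jproj a)))
    (hα : ∀ a, HasValue (Pt a) (u a : FLb N) (α a : Qb))
    (F2 : nodalO G)
    (hF2L : (F2 : FLb N) ∈ riemannRochSpace
      (Finsupp.single Poo (((∑ a, nn a : ℕ)) : ℤ) +
        Finsupp.single P0 (((∑ a, nn a : ℕ)) : ℤ)))
    (hred : ∃ γ : kRes A, γ ≠ 0 ∧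
      redOoO G F2 = algebraMap (kRes A) Foo γ * ∏ a, redOoO G (u a) ∧
      red0O G F2 = algebraMap (kRes A) F0 γ * ∏ a, red0O G (u a))
    (hF2O : ∀ i, HasValue (O i) (F2 : FLb N) 0)
    (hF2E : ∀ a, ∀ v ∈ Zx a, ∀ P1, G.r P1 = v →
      HasValue P1 ((u a : FLb N) - algebraMap Qb (FLb N) (α a : Qb)) 0 →
      HasValue P1 (F2 : FLb N) 0) :
    ∃ P'' : Fin g → Place Qb (FLb N), (∀ i, G.r (P'' i) = G.r (O i)) ∧
      (∀ i, HasValue (P'' i) ((F2 : FLb N) / t i) 0) ∧
      ∃ w : FLb N, w ≠ 0 ∧ ∀ P : Place Qb (FLb N),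
        P.ord w = ((∑ i, (Finsupp.single (P'' i) (1 : ℤ) - Finsupp.single (O i) 1)
          - ∑ a, (Finsupp.single (Pt a) (1 : ℤ) - Finsupp.single (O (jproj a)) 1) :
            Divisor Qb (FLb N))) P := by
  classical
  obtain ⟨γ, hγ, hredOo, hredZ⟩ := hred
  have H := fibreAxN_nodal hS
  have hrv := hS.rv
  -- doubly integral functions which are glued units at the nodes are regular everywhere
  have hRegO : ∀ w : nodalO G, redOoO G w ≠ 0 → red0O G w ≠ 0 →
      (∀ ν, (G.nOo ν).ord (redOoO G w) = 0 ∧ (G.n0 ν).ord (red0O G w) = 0) →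
      ∀ x, RegN G x (w : FLb N) := by
    intro w h1 h2 h3 x
    rcases x with Q | Q | ν
    · exact ⟨w.2.1, h1⟩
    · exact ⟨w.2.2, h2⟩
    · exact ⟨w.2.1, w.2.2, h1, h2, (h3 ν).1, (h3 ν).2⟩
  have hu0 : ∀ a, redOoO G (u a) ≠ 0 ∧ red0O G (u a) ≠ 0 := hAux.ne_zero
  have huR : ∀ a x, RegN G x (u a : FLb N) := fun a =>
    hRegO (u a) (hu0 a).1 (hu0 a).2 (hAux.node_unit a)
  have hQsm : ∀ i, IsSm G (G.r (O i)) := fun i => nodalCoord_isSm hrv (hsys.coord i)
  have hQne : ∀ i, G.r (O i) ≠ G.r Poo ∧ G.r (O i) ≠ G.r P0 := fun i => by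
    rw [hPoo, hP0]
    exact hAux.qinf_ne i
  have hzmainU : ∀ a, ordC G (G.r (O (jproj a))) (u a : FLb N) = 1 := fun a => by
    rw [ordC_eq_ordPair]
    exact hAux.zero_main a
  -- no pole of `u a` outside `Poo`, `P0`
  have hnpu : ∀ a i P1, G.r P1 = G.r (O i) → 0 ≤ P1.ord (u a : FLb N) := by
    intro a i P1 hP1
    have h1 := ord_ge_of_mem_rr_two Poo P0 (nn a) (huL a) P1
    have h2 : Poo ≠ P1 := by
      rintro rfl
      exact (hQne i).1 hP1.symm
    have h3 : P0 ≠ P1 := by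
      rintro rfl
      exact (hQne i).2 hP1.symm
    rwa [if_neg h2, if_neg h3, add_zero] at h1
  -- the values `α a` are nonunits
  have hαnu : ∀ a, ((α a : A) : Qb) ∈ A.nonunits := fun a =>
    value_nonunit_nodal hS (G.r (O (jproj a))) (hQsm _) (u a : FLb N)
      (inComp_of_mem _ (hQsm _) (u a).2) (hnpu a (jproj a)) (by rw [hzmainU a])
      (Pt a) (hPt a) (α a : Qb) (hα a)
  have hres : ∀ a, IsLocalRing.residue A (α a) = 0 := fun a => by
    obtain ⟨ha, hm⟩ := ValuationSubring.mem_nonunits_iff_exists_mem_maximalIdeal.mp (hαnu a)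
    rw [IsLocalRing.residue_eq_zero_iff]
    exact hm
  -- `u a` is not constant
  have hune : ∀ a (c : Qb), (u a : FLb N) ≠ algebraMap Qb (FLb N) c := by
    intro a c h
    have h1 := H.cons (G.r (O (jproj a))) (u a : FLb N) (hQsm _) (huR a _) 0 (fun P => by
      rw [h, Fermat.Agent.H23.ord_algebraMap, Finsupp.zero_apply])
    rw [Finsupp.mapDomain_zero, Finsupp.zero_apply, hzmainU a] at h1
    omega
  have hα1 : ∀ a, 1 ≤ (Pt a).ord ((u a : FLb N) - algebraMap Qb (FLb N) (α a : Qb)) :=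
    fun a => (hα a).resolve_left (hune a (α a))
  -- `v a = u a - α a`
  set v : Fin g ⊕ Fin g → nodalO G := fun a => u a - nodalConst hrv (α a) with hvdef
  have hvcoe : ∀ a, ((v a : nodalO G) : FLb N) =
      (u a : FLb N) - algebraMap Qb (FLb N) (α a : Qb) := fun a => rfl
  have hvOo : ∀ a, redOoO G (v a) = redOoO G (u a) := fun a => by
    rw [hvdef]
    simp only
    rw [map_sub, redOoO_nodalConst, hres, map_zero, sub_zero]
  have hvZ : ∀ a, red0O G (v a) = red0O G (u a) := fun a => by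
    rw [hvdef]
    simp only
    rw [map_sub, red0O_nodalConst, hres, map_zero, sub_zero]
  have hvR : ∀ a x, RegN G x ((v a : nodalO G) : FLb N) := fun a =>
    hRegO (v a) (by rw [hvOo]; exact (hu0 a).1) (by rw [hvZ]; exact (hu0 a).2)
      (fun ν => by rw [hvOo, hvZ]; exact hAux.node_unit a ν)
  have hordv : ∀ a x, ordC G x ((v a : nodalO G) : FLb N) =
      ordPair (redOoO G (u a)) (red0O G (u a)) x := fun a x => by
    rw [ordC_eq_ordPair, hvOo a, hvZ a]
  -- the reduction of `F2`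
  have hprodOo : ∏ a, redOoO G (u a) ≠ 0 := Finset.prod_ne_zero_iff.mpr fun a _ => (hu0 a).1
  have hprodZ : ∏ a, red0O G (u a) ≠ 0 := Finset.prod_ne_zero_iff.mpr fun a _ => (hu0 a).2
  have hF2Oo : redOoO G F2 ≠ 0 := by
    rw [hredOo]
    exact mul_ne_zero ((map_ne_zero _).mpr hγ) hprodOo
  have hF2Z : red0O G F2 ≠ 0 := by
    rw [hredZ]
    exact mul_ne_zero ((map_ne_zero _).mpr hγ) hprodZ
  have hordOo : ∀ Q : Place (kRes A) Foo,
      Q.ord (redOoO G F2) = ∑ a, Q.ord (redOoO G (u a)) := fun Q => by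
    rw [hredOo, ord_const_mul Q hγ hprodOo, ord_prod_of_ne_zero Q _ _ (fun a _ => (hu0 a).1)]
  have hordZ : ∀ Q : Place (kRes A) F0,
      Q.ord (red0O G F2) = ∑ a, Q.ord (red0O G (u a)) := fun Q => by
    rw [hredZ, ord_const_mul Q hγ hprodZ, ord_prod_of_ne_zero Q _ _ (fun a _ => (hu0 a).2)]
  have hF2R : ∀ x, RegN G x (F2 : FLb N) := by
    refine hRegO F2 hF2Oo hF2Z (fun ν => ⟨?_, ?_⟩)
    · rw [hordOo]
      exact Finset.sum_eq_zero fun a _ => (hAux.node_unit a ν).1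
    · rw [hordZ]
      exact Finset.sum_eq_zero fun a _ => (hAux.node_unit a ν).2
  have hF2ne : (F2 : FLb N) ≠ 0 := H.ne_zero _ _ (hF2R (G.r Poo))
  have hordF : ∀ x, IsSm G x → ordC G x (F2 : FLb N) =
      ∑ a, ordC G x ((v a : nodalO G) : FLb N) := by
    intro x _
    rw [ordC_eq_ordPair]
    simp only [hordv]
    rcases x with Q | Q | ν
    · exact hordOo Q
    · exact hordZ Q
    · show (0 : ℤ) = ∑ a : Fin g ⊕ Fin g, (0 : ℤ)
      rw [Finset.sum_const_zero]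
  -- the coordinates
  have htR : ∀ i, RegN G (G.r (O i)) (t i) := by
    intro i
    rcases hrO : G.r (O i) with Q | Q | ν
    · obtain ⟨h, h1⟩ := (hsys.coord i).simple_oo Q hrO
      refine ⟨h, fun h0 => ?_⟩
      rw [h0, Place.ord_zero] at h1
      omega
    · obtain ⟨h, h1⟩ := (hsys.coord i).simple_zero Q hrO
      refine ⟨h, fun h0 => ?_⟩
      rw [h0, Place.ord_zero] at h1
      omega
    · exact absurd hrO ((hsys.coord i).smooth ν)
  have ht2 : ∀ i, ordC G (G.r (O i)) (t i) = 1 := by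
    intro i
    rcases hrO : G.r (O i) with Q | Q | ν
    · obtain ⟨h, h1⟩ := (hsys.coord i).simple_oo Q hrO
      rw [ordC_oo Q _ h]
      exact h1
    · obtain ⟨h, h1⟩ := (hsys.coord i).simple_zero Q hrO
      rw [ordC_zero Q _ h]
      exact h1
    · exact absurd hrO ((hsys.coord i).smooth ν)
  -- hypotheses of the abstract statement
  have hsmoo : IsSm G (G.r Poo) := by
    rw [hPoo]
    exact hAux.sm_oo
  have hsm0 : IsSm G (G.r P0) := by
    rw [hP0]
    exact hAux.sm_zero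
  have hne : G.r Poo ≠ G.r P0 := by
    rw [hPoo, hP0]
    intro h
    cases h
  have hvL : ∀ a, ((v a : nodalO G) : FLb N) ∈ riemannRochSpace
      (Finsupp.single Poo (nn a : ℤ) + Finsupp.single P0 (nn a : ℤ)) := fun a => by
    rw [hvcoe a]
    exact Submodule.sub_mem _ (huL a) (rdn_const_mem_rr Poo P0 (nn a) _)
  have hpole : ∀ a, ordC G (G.r Poo) ((v a : nodalO G) : FLb N) = -(nn a : ℤ) ∧
      ordC G (G.r P0) ((v a : nodalO G) : FLb N) = -(nn a : ℤ) := fun a => by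
    rw [hordv, hordv, hPoo, hP0]
    exact hAux.pole a
  have hzmain : ∀ a, ordC G (G.r (O (jproj a))) ((v a : nodalO G) : FLb N) = 1 := fun a => by
    rw [hordv]
    exact hAux.zero_main a
  have hzextra : ∀ a, ∀ x ∈ Zx a, ordC G x ((v a : nodalO G) : FLb N) = 1 :=
    fun a x hx => by
      rw [hordv]
      exact hAux.zero_extra a x hx
  have hzelse : ∀ a x, IsSm G x → x ≠ G.r Poo → x ≠ G.r P0 → x ≠ G.r (O (jproj a)) →
      x ∉ Zx a → ordC G x ((v a : nodalO G) : FLb N) = 0 := by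
    intro a x hx h1 h2 h3 h4
    rw [hordv]
    rw [hPoo] at h1
    rw [hP0] at h2
    exact hAux.zero_else a x hx h1 h2 h3 h4
  have hnotMem : ∀ a, G.r Poo ∉ Zx a ∧ G.r P0 ∉ Zx a := fun a => by
    rw [hPoo, hP0]
    exact hAux.qinf_notMem a
  have hvPt : ∀ a, 1 ≤ (Pt a).ord ((v a : nodalO G) : FLb N) := fun a => by
    rw [hvcoe a]
    exact hα1 a
  have hF2O' : ∀ i, 1 ≤ (O i).ord (F2 : FLb N) := fun i =>
    rdn_ord_of_hasValue_zero hF2ne (hF2O i)
  have hF2E' : ∀ a, ∀ x ∈ Zx a, ∀ P1, G.r P1 = x →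
      1 ≤ P1.ord ((v a : nodalO G) : FLb N) → 1 ≤ P1.ord (F2 : FLb N) := by
    intro a x hx P1 hP1 h
    refine rdn_ord_of_hasValue_zero hF2ne (hF2E a x hx P1 hP1 (Or.inr ?_))
    rw [map_zero, sub_zero, ← hvcoe a]
    exact h
  obtain ⟨P'', h1, h2, w, hw0, hw⟩ := residualN_abstract H (fun i => G.r (O i)) hsys.inj hQsm
    O t (fun _ => rfl) (fun i => (hsys.coord i).zero) htR ht2
    (fun i => (hsys.coord i).nopole) Poo P0 hsmoo hsm0 hne nn
    (fun a => ((v a : nodalO G) : FLb N)) Zx hvL hvR hQne hpole hzmain hzextra hzelse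
    hAux.sm_extra hnotMem hAux.qs_notMem hAux.disj Pt hPt hvPt (F2 : FLb N) hF2L hF2R hordF
    hF2O' hF2E'
  refine ⟨P'', h1, fun i => Or.inr ?_, w, hw0, hw⟩
  rw [map_zero, sub_zero, div_eq_mul_inv]
  exact h2 i

/-- **N-DIV** (row ORD-GB-N6), unconditional. -/
theorem residualDivisorN : Fermat.Agent.H94.ORD.ResidualDivisorN := by
  intro N p A Foo F0 _ _ _ _ ι G g hS O t hsys Poo P0 Qoo Q0 nn u Zx hPoo hP0 huL hAux Pt α
    hPt hα F2 hF2L hred hF2O hF2E
  exact residualN_nodal hS O t hsys Poo P0 Qoo Q0 nn u Zx hPoo hP0 huL hAux Pt α hPt hα F2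
    hF2L hred hF2O hF2E

end Fermat.Agent.H56.ORD
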