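/-
P-ORD block B1, row B1-M2 (helper56): the conservation law at a smooth point of one component
of a nodal model, ABSTRACT form.

`SmoothDiscAx V red Δ B Max Q` axiomatises the local situation at a smooth point `Q` of a
component (Gauss ring `V`, reduction `red`), with residue disc `Δ`, chart `B` and maximal
ideal `B ∩ Max` of the point: local Hartogs, place generators, normality of the component at the
point, values.  Conclusion (`SmoothDiscAx.conservation`) : for a unit `u` of `V`,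
`∑_{P ∈ Δ} ord_P u = ord_Q (red u)`.
-/
import Fermat.Agent.H94.FF.Val
import Fermat.Agent.H56.FF.ResDivAbs

set_option autoImplicit false
set_option linter.style.haveILetI false
set_option linter.unusedSectionVars false

noncomputable section

open AlgebraicCurve Fermat.Agent.H94.FF Fermat.Agent.H56.FF

namespace Fermat.Agent.H56.ORD

open Classical

section Units

variable {F Fk k : Type*} [Field F] [Field k] [Field Fk] [Algebra k Fk]

/-- "`f` is a unit of `V`" : `f ∈ V` with nonzero reduction -/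
def IsU (V : Subring F) (red : V →+* Fk) (f : F) : Prop := ∃ h : f ∈ V, red ⟨f, h⟩ ≠ 0

/-- the order at `Q` of the reduction -/
def rhoQ (V : Subring F) (red : V →+* Fk) (Q : Place k Fk) (f : F) : ℤ :=
  if h : f ∈ V then Q.ord (red ⟨f, h⟩) else 0

variable {V : Subring F} {red : V →+* Fk} {Q : Place k Fk}

theorem rhoQ_eq {f : F} (h : f ∈ V) : rhoQ V red Q f = Q.ord (red ⟨f, h⟩) := by
  unfold rhoQ
  rw [dif_pos h]

theorem IsU.ne_zero {f : F} (hf : IsU V red f) : f ≠ 0 := by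
  obtain ⟨h, hr⟩ := hf
  intro h0
  apply hr
  have : (⟨f, h⟩ : V) = 0 := Subtype.ext h0
  rw [this, map_zero]

theorem IsU.mul {f g : F} (hf : IsU V red f) (hg : IsU V red g) :
    IsU V red (f * g) ∧ rhoQ V red Q (f * g) = rhoQ V red Q f + rhoQ V red Q g := by
  obtain ⟨hfm, hfr⟩ := hf
  obtain ⟨hgm, hgr⟩ := hg
  have hm : f * g ∈ V := V.mul_mem hfm hgm
  have e : red ⟨f * g, hm⟩ = red ⟨f, hfm⟩ * red ⟨g, hgm⟩ := by
    rw [← map_mul]
    rfl
  refine ⟨⟨hm, ?_⟩, ?_⟩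
  · rw [e]
    exact mul_ne_zero hfr hgr
  · rw [rhoQ_eq hm, rhoQ_eq hfm, rhoQ_eq hgm, e, Q.ord_mul hfr hgr]

theorem IsU.one : IsU V red (1 : F) ∧ rhoQ V red Q (1 : F) = 0 := by
  have e : red ⟨1, V.one_mem⟩ = 1 := map_one red
  refine ⟨⟨V.one_mem, ?_⟩, ?_⟩
  · rw [e]
    exact one_ne_zero
  · rw [rhoQ_eq V.one_mem, e, Place.ord_one]

theorem IsU.inv (hinv : ∀ u : V, red u ≠ 0 → (u : F)⁻¹ ∈ V) {f : F} (hf : IsU V red f) :
    IsU V red f⁻¹ ∧ rhoQ V red Q f⁻¹ = -rhoQ V red Q f := by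
  have hf0 := hf.ne_zero
  obtain ⟨hfm, hfr⟩ := hf
  have hm : f⁻¹ ∈ V := hinv ⟨f, hfm⟩ hfr
  have e : red ⟨f⁻¹, hm⟩ * red ⟨f, hfm⟩ = 1 := by
    rw [← map_mul]
    have : (⟨f⁻¹, hm⟩ : V) * ⟨f, hfm⟩ = 1 := Subtype.ext (inv_mul_cancel₀ hf0)
    rw [this, map_one]
  have hr : red ⟨f⁻¹, hm⟩ ≠ 0 := fun h0 => by
    rw [h0, zero_mul] at e
    exact zero_ne_one e
  refine ⟨⟨hm, hr⟩, ?_⟩
  have h1 := congrArg Q.ord e
  rw [Q.ord_mul hr hfr, Place.ord_one] at h1
  rw [rhoQ_eq hm, rhoQ_eq hfm]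
  omega

theorem IsU.pow {f : F} (hf : IsU V red f) (n : ℕ) :
    IsU V red (f ^ n) ∧ rhoQ V red Q (f ^ n) = n * rhoQ V red Q f := by
  induction n with
  | zero =>
    rw [pow_zero]
    refine ⟨(IsU.one (Q := Q)).1, ?_⟩
    rw [(IsU.one (V := V) (red := red) (Q := Q)).2]
    simp
  | succ n ih =>
    rw [pow_succ]
    refine ⟨(IsU.mul (Q := Q) ih.1 hf).1, ?_⟩
    rw [(IsU.mul (Q := Q) ih.1 hf).2, ih.2]
    push_cast
    ring

theorem IsU.zpow (hinv : ∀ u : V, red u ≠ 0 → (u : F)⁻¹ ∈ V) {f : F} (hf : IsU V red f)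
    (n : ℤ) : IsU V red (f ^ n) ∧ rhoQ V red Q (f ^ n) = n * rhoQ V red Q f := by
  rcases Int.eq_nat_or_neg n with ⟨m, rfl | rfl⟩
  · rw [zpow_natCast]
    exact IsU.pow hf m
  · rw [zpow_neg, zpow_natCast]
    have h1 := IsU.pow (Q := Q) hf m
    have h2 := IsU.inv (Q := Q) hinv h1.1
    refine ⟨h2.1, ?_⟩
    rw [h2.2, h1.2]
    ring

/-- a constant multiple: if `algebraMap c` is in the kernel of the reduction -/
theorem IsU.sub_const {K : Type*} [Field K] [Algebra K F] {f : F} (hf : IsU V red f) (c : K)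
    (hc : algebraMap K F c ∈ V) (hred : red ⟨_, hc⟩ = 0) :
    IsU V red (f - algebraMap K F c) ∧
      rhoQ V red Q (f - algebraMap K F c) = rhoQ V red Q f := by
  obtain ⟨hfm, hfr⟩ := hf
  have hm : f - algebraMap K F c ∈ V := V.sub_mem hfm hc
  have e : red ⟨f - algebraMap K F c, hm⟩ = red ⟨f, hfm⟩ := by
    have : (⟨f - algebraMap K F c, hm⟩ : V) = ⟨f, hfm⟩ - ⟨_, hc⟩ := rfl
    rw [this, map_sub, hred, sub_zero]
  refine ⟨⟨hm, ?_⟩, ?_⟩
  · rw [e]
    exact hfr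
  · rw [rhoQ_eq hm, rhoQ_eq hfm, e]

end Units

section Disc

variable {K F k Fk : Type*} [Field K] [Field F] [Algebra K F] [Field k] [Field Fk]
  [Algebra k Fk]

/-- **The local situation at a smooth point of a component.** -/
structure SmoothDiscAx (V : Subring F) (red : V →+* Fk) (Δ : Set (Place K F))
    (B : Subring F) (Max : Set F) (Q : Place k Fk) : Prop where
  /-- the chart lies in the Gauss ring -/
  le : B ≤ V
  /-- units of the Gauss ring -/
  inv : ∀ u : V, red u ≠ 0 → (u : F)⁻¹ ∈ V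
  /-- normalisation -/
  norm : ∀ φ : F, φ ≠ 0 → ∃ (c : K) (u : V), c ≠ 0 ∧ red u ≠ 0 ∧
    φ = algebraMap K F c * (u : F)
  /-- the reduction of the chart is regular at `Q` -/
  int : ∀ f (hf : f ∈ B), 0 ≤ Q.ord (red ⟨f, le hf⟩)
  /-- the elements of the chart outside the maximal ideal reduce to units at `Q` -/
  unit : ∀ s (hs : s ∈ B), s ∉ Max → red ⟨s, le hs⟩ ≠ 0 ∧ Q.ord (red ⟨s, le hs⟩) = 0
  /-- local Hartogs -/
  hart : ∀ g ∈ V, (∀ P ∈ Δ, 0 ≤ P.ord g) → ∃ s ∈ B, s ∉ Max ∧ s * g ∈ B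
  /-- place generators -/
  pg : ∀ P ∈ Δ, ∃ t : F, P.ord t = 1 ∧ ∀ P' ∈ Δ, P' ≠ P → P'.ord t = 0
  /-- the component is normal at the point -/
  dvr : ∀ z : Fk, 0 < Q.ord z → ∃ (f s : F) (hf : f ∈ B) (hs : s ∈ B), s ∉ Max ∧
    red ⟨f, le hf⟩ = z * red ⟨s, le hs⟩
  /-- the elements of the chart are regular on the disc -/
  reg : ∀ P ∈ Δ, ∀ f ∈ B, 0 ≤ P.ord f
  /-- an element of the chart whose reduction vanishes at `Q` has its values on the disc in the
  maximal ideal of `A` -/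
  val : ∀ P ∈ Δ, ∀ f (hf : f ∈ B), 0 < Q.ord (red ⟨f, le hf⟩) →
    ∃ (c : K) (hc : algebraMap K F c ∈ V), HasVal P f c ∧ red ⟨_, hc⟩ = 0
  /-- an element of the chart vanishing at a point of the disc reduces to a function vanishing
  at `Q` -/
  van : ∀ P ∈ Δ, ∀ f (hf : f ∈ B), 0 < P.ord f →
    red ⟨f, le hf⟩ = 0 ∨ 0 < Q.ord (red ⟨f, le hf⟩)

variable {V : Subring F} {red : V →+* Fk} {Δ : Set (Place K F)} {B : Subring F}
  {Max : Set F} {Q : Place k Fk}

/-- a unit of `V` without pole on the disc reduces to a function regular at `Q` -/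
theorem SmoothDiscAx.rho_nonneg (H : SmoothDiscAx V red Δ B Max Q) {g : F}
    (hg : IsU V red g) (hnp : ∀ P ∈ Δ, 0 ≤ P.ord g) : 0 ≤ rhoQ V red Q g := by
  obtain ⟨s, hsB, hsM, hsg⟩ := H.hart g hg.1 hnp
  obtain ⟨hs0, hsord⟩ := H.unit s hsB hsM
  have hsU : IsU V red s := ⟨H.le hsB, hs0⟩
  have h1 := (IsU.mul (Q := Q) hsU hg).2
  have h2 := H.int (s * g) hsg
  rw [← rhoQ_eq (Q := Q) (H.le hsg), h1, rhoQ_eq (H.le hsB), hsord, zero_add] at h2
  exact h2

/-- a unit of `V` without pole on the disc and with a zero on the disc reduces to a function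
vanishing at `Q` -/
theorem SmoothDiscAx.rho_pos (H : SmoothDiscAx V red Δ B Max Q) {g : F}
    (hg : IsU V red g) (hnp : ∀ P ∈ Δ, 0 ≤ P.ord g) (P : Place K F) (hP : P ∈ Δ)
    (hz : 0 < P.ord g) : 0 < rhoQ V red Q g := by
  obtain ⟨s, hsB, hsM, hsg⟩ := H.hart g hg.1 hnp
  obtain ⟨hs0, hsord⟩ := H.unit s hsB hsM
  have hsU : IsU V red s := ⟨H.le hsB, hs0⟩
  have hmul := IsU.mul (Q := Q) hsU hg
  have h1 := hmul.2
  have hpos : 0 < P.ord (s * g) := by
    rw [P.ord_mul hsU.ne_zero hg.ne_zero]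
    have := H.reg P hP s hsB
    omega
  have h2 := H.van P hP (s * g) hsg hpos
  have h3 : red ⟨s * g, H.le hsg⟩ ≠ 0 := by
    obtain ⟨h, hr⟩ := hmul.1
    exact hr
  have h4 := h2.resolve_left h3
  rw [← rhoQ_eq (Q := Q) (H.le hsg), h1, rhoQ_eq (H.le hsB), hsord, zero_add] at h4
  exact h4

/-- a unit of `V` without zero or pole on the disc reduces to a unit at `Q` -/
theorem SmoothDiscAx.rho_eq_zero (H : SmoothDiscAx V red Δ B Max Q) {g : F}
    (hg : IsU V red g) (h0 : ∀ P ∈ Δ, P.ord g = 0) : rhoQ V red Q g = 0 := by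
  have h1 := H.rho_nonneg hg (fun P hP => by rw [h0 P hP])
  have hi := IsU.inv (Q := Q) H.inv hg
  have h2 := H.rho_nonneg hi.1 (fun P hP => by rw [P.ord_inv, h0 P hP, neg_zero])
  rw [hi.2] at h2
  omega

/-- **Transversality** : a unit of `V` with a simple zero at `P` and no other zero or pole on
the disc reduces to a uniformiser at `Q`. -/
theorem SmoothDiscAx.rho_eq_one (H : SmoothDiscAx V red Δ B Max Q) {t : F}
    (ht : IsU V red t) (P : Place K F) (hP : P ∈ Δ) (h1 : P.ord t = 1)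
    (h0 : ∀ P' ∈ Δ, P' ≠ P → P'.ord t = 0) : rhoQ V red Q t = 1 := by
  have hnp : ∀ P' ∈ Δ, 0 ≤ P'.ord t := by
    intro P' hP'
    by_cases h : P' = P
    · rw [h, h1]
      norm_num
    · rw [h0 P' hP' h]
  have hge : 0 < rhoQ V red Q t := H.rho_pos ht hnp P hP (by rw [h1]; norm_num)
  -- a uniformiser at `Q`
  obtain ⟨z, hz⟩ := Fermat.Agent.H18.rv_exists_ord_eq_one Q
  have hz0 : z ≠ 0 := by
    rintro rfl
    rw [Place.ord_zero] at hz
    omega
  obtain ⟨f, s, hf, hs, hsM, e⟩ := H.dvr z (by rw [hz]; norm_num)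
  obtain ⟨hs0, hsord⟩ := H.unit s hs hsM
  have hfr : red ⟨f, H.le hf⟩ ≠ 0 := by
    rw [e]
    exact mul_ne_zero hz0 hs0
  have hford : Q.ord (red ⟨f, H.le hf⟩) = 1 := by
    rw [e, Q.ord_mul hz0 hs0, hz, hsord, add_zero]
  have hfU : IsU V red f := ⟨H.le hf, hfr⟩
  obtain ⟨c, hc, hval, hredc⟩ := H.val P hP f hf (by rw [hford]; norm_num)
  have hsub := IsU.sub_const (Q := Q) hfU c hc hredc
  have hti := IsU.inv (Q := Q) H.inv ht
  have hg := IsU.mul (Q := Q) hsub.1 hti.1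
  have hfc0 : f - algebraMap K F c ≠ 0 := hsub.1.ne_zero
  have hgnp : ∀ P' ∈ Δ, 0 ≤ P'.ord ((f - algebraMap K F c) * t⁻¹) := by
    intro P' hP'
    rw [P'.ord_mul hfc0 hti.1.ne_zero, P'.ord_inv]
    by_cases h : P' = P
    · rw [h, h1]
      have h2 : 1 ≤ P.ord (f - algebraMap K F c) := by
        rcases hval with h3 | h3
        · exact absurd (sub_eq_zero.mpr h3) hfc0
        · exact h3
      omega
    · rw [h0 P' hP' h]
      have h2 : 0 ≤ P'.ord (f - algebraMap K F c) := by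
        have h3 : f - algebraMap K F c = f + -(algebraMap K F c) := sub_eq_add_neg _ _
        rw [h3]
        rw [h3] at hfc0
        refine Fermat.Agent.H23.ord_add_ge P' hfc0 0 (Or.inr (H.reg P' hP' f hf)) (Or.inr ?_)
        rw [Fermat.Agent.H23.ord_neg, Fermat.Agent.H23.ord_algebraMap]
      omega
  have h5 := H.rho_nonneg hg.1 hgnp
  rw [hg.2, hsub.2, hti.2, rhoQ_eq (H.le hf), hford] at h5
  omega

/-- normalised place generators -/
theorem SmoothDiscAx.exists_gen (H : SmoothDiscAx V red Δ B Max Q) (P : Place K F)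
    (hP : P ∈ Δ) : ∃ t : F, IsU V red t ∧ P.ord t = 1 ∧ (∀ P' ∈ Δ, P' ≠ P → P'.ord t = 0) ∧
      rhoQ V red Q t = 1 := by
  obtain ⟨t₀, h1, h0⟩ := H.pg P hP
  have ht₀ : t₀ ≠ 0 := by
    rintro rfl
    rw [Place.ord_zero] at h1
    omega
  obtain ⟨c, u, hc, hu, e⟩ := H.norm t₀ ht₀
  have huU : IsU V red (u : F) := ⟨u.2, hu⟩
  have hord : ∀ P' : Place K F, P'.ord (u : F) = P'.ord t₀ := fun P' => by
    rw [e, ord_const_mul P' hc huU.ne_zero]
  have h1' : P.ord (u : F) = 1 := by rw [hord, h1]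
  have h0' : ∀ P' ∈ Δ, P' ≠ P → P'.ord (u : F) = 0 := fun P' hP' hne => by
    rw [hord, h0 P' hP' hne]
  exact ⟨u, huU, h1', h0', H.rho_eq_one huU P hP h1' h0'⟩

/-- **Conservation on a finite part of the disc.** -/
theorem SmoothDiscAx.rho_eq_sum (H : SmoothDiscAx V red Δ B Max Q)
    (T : Finset (Place K F)) (hT : ∀ P ∈ T, P ∈ Δ) (u : F) (hu : IsU V red u)
    (h0 : ∀ P ∈ Δ, P ∉ T → P.ord u = 0) : rhoQ V red Q u = ∑ P ∈ T, P.ord u := by
  induction T using Finset.induction_on generalizing u with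
  | empty =>
    rw [Finset.sum_empty]
    exact H.rho_eq_zero hu (fun P hP => h0 P hP (Finset.notMem_empty P))
  | insert P₀ T hP₀ ih =>
    have hP₀Δ : P₀ ∈ Δ := hT P₀ (Finset.mem_insert_self _ _)
    obtain ⟨t, htU, ht1, ht0, htρ⟩ := H.exists_gen P₀ hP₀Δ
    have hz := IsU.zpow (Q := Q) H.inv htU (P₀.ord u)
    have hzi := IsU.inv (Q := Q) H.inv hz.1
    have hu₁ := IsU.mul (Q := Q) hu hzi.1
    have hord : ∀ P : Place K F, P.ord (u * (t ^ (P₀.ord u))⁻¹) =
        P.ord u - P₀.ord u * P.ord t := fun P => by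
      rw [P.ord_mul hu.ne_zero hzi.1.ne_zero, P.ord_inv, P.ord_zpow]
      ring
    have hordP₀ : P₀.ord (u * (t ^ (P₀.ord u))⁻¹) = 0 := by
      rw [hord, ht1]
      ring
    have hordne : ∀ P ∈ Δ, P ≠ P₀ → P.ord (u * (t ^ (P₀.ord u))⁻¹) = P.ord u :=
      fun P hP hne => by
        rw [hord, ht0 P hP hne]
        ring
    have h2 := ih (fun P hP => hT P (Finset.mem_insert_of_mem hP)) (u * (t ^ (P₀.ord u))⁻¹)
      hu₁.1 (fun P hP hPT => by
        by_cases h : P = P₀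
        · rw [h]
          exact hordP₀
        · rw [hordne P hP h]
          exact h0 P hP (fun hmem => by
            rcases Finset.mem_insert.mp hmem with h3 | h3
            · exact h h3
            · exact hPT h3))
    rw [hu₁.2, hzi.2, hz.2, htρ] at h2
    rw [Finset.sum_insert hP₀]
    have h3 : ∑ P ∈ T, P.ord (u * (t ^ (P₀.ord u))⁻¹) = ∑ P ∈ T, P.ord u :=
      Finset.sum_congr rfl fun P hP => hordne P (hT P (Finset.mem_insert_of_mem hP))
        (fun h => hP₀ (h ▸ hP))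
    rw [h3] at h2
    omega

/-- **The conservation law at a smooth point** (abstract form of (M2)). -/
theorem SmoothDiscAx.conservation (H : SmoothDiscAx V red Δ B Max Q) {X : Type*}
    (r : Place K F → X) (x : X) (hr : ∀ P, r P = x ↔ P ∈ Δ) (u : V) (hu : red u ≠ 0)
    (D : Divisor K F) (hD : ∀ P, D P = P.ord (u : F)) :
    Finsupp.mapDomain r D x = Q.ord (red u) := by
  have huU : IsU V red (u : F) := ⟨u.2, hu⟩
  have h1 := H.rho_eq_sum (D.support.filter (fun P => P ∈ Δ))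
    (fun P hP => (Finset.mem_filter.mp hP).2) (u : F) huU (fun P hP hPT => by
      by_contra hne
      apply hPT
      rw [Finset.mem_filter, Finsupp.mem_support_iff, hD]
      exact ⟨hne, hP⟩)
  rw [rhoQ_eq u.2] at h1
  rw [h1, Finsupp.mapDomain, Finsupp.sum_apply, Finsupp.sum, Finset.sum_filter]
  refine Finset.sum_congr rfl fun P _ => ?_
  rw [Finsupp.single_apply]
  by_cases h : P ∈ Δ
  · rw [if_pos h, if_pos ((hr P).mpr h), hD]
  · rw [if_neg h, if_neg (fun h' => h ((hr P).mp h'))]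

end Disc

end Fermat.Agent.H56.ORD
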