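/-
P-ORD block B1, row B1-M2 (helper56): the conservation law at the smooth points for the nodal
data `nmG` of `X₀(M p)`, from the local API of `NodalModelAPI` and the chart basics
(`NmBasics`, helper84's B1-SPEC library).
-/
import Fermat.Agent.H84.ORD.NodalSpecA
import Fermat.Agent.H56.ORD.NmSmoothAbs

set_option autoImplicit false
set_option synthInstance.maxHeartbeats 400000
set_option maxHeartbeats 1600000
set_option linter.style.haveILetI false
set_option linter.unusedSectionVars false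

noncomputable section

open AlgebraicCurve ModularCurve

namespace Fermat.Agent.H56.ORD

open Fermat.Agent.H72.FF Fermat.Agent.H18.ORD Fermat.Agent.H66 Fermat.Agent.H27.ESD
  Fermat.Agent.H84.ORD

/-! ### generic facts on a place -/

section Generic

variable {k Fk : Type*} [Field k] [Field Fk] [Algebra k Fk] (Q : Place k Fk)

theorem nsm_mem_nonunits_iff {x : Fk} :
    x ∈ Q.toValuationSubring.nonunits ↔ x = 0 ∨ 0 < Q.ord x := by
  rw [ValuationSubring.mem_nonunits_iff_exists_mem_maximalIdeal]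
  constructor
  · rintro ⟨ha, h⟩
    exact (Fermat.Agent.H23.mem_maximalIdeal_iff_ord Q ⟨x, ha⟩).1 h
  · intro h
    have hmem : x ∈ Q.toValuationSubring := by
      rw [Fermat.Agent.H23.mem_iff_ord]
      rcases h with h | h
      · exact Or.inl h
      · exact Or.inr h.le
    exact ⟨hmem, (Fermat.Agent.H23.mem_maximalIdeal_iff_ord Q ⟨x, hmem⟩).2 h⟩

theorem nsm_const_notMem {κ : k} (hκ : κ ≠ 0) :
    algebraMap k Fk κ ∉ Q.toValuationSubring.nonunits := by
  rw [nsm_mem_nonunits_iff, Fermat.Agent.H23.ord_algebraMap]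
  rintro (h | h)
  · exact hκ ((map_eq_zero _).mp h)
  · exact lt_irrefl _ h

/-- `x ≡ κ mod 𝔪_Q` implies that `x` is regular at `Q` -/
theorem nsm_ord_nonneg_of_sub {x : Fk} {κ : k}
    (h : x - algebraMap k Fk κ ∈ Q.toValuationSubring.nonunits) : 0 ≤ Q.ord x := by
  have h1 : x - algebraMap k Fk κ ∈ Q.toValuationSubring := ValuationSubring.nonunits_subset h
  have h2 : x ∈ Q.toValuationSubring := by
    have := add_mem h1 (Q.algebraMap_mem' κ)
    rwa [sub_add_cancel] at this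
  exact Fermat.Agent.H23.ord_nonneg_of_mem Q h2

/-- `x ≡ κ mod 𝔪_Q` with `κ ≠ 0` implies that `x` is a unit at `Q` -/
theorem nsm_notMem_of_sub {x : Fk} {κ : k} (hκ : κ ≠ 0)
    (h : x - algebraMap k Fk κ ∈ Q.toValuationSubring.nonunits) :
    x ∉ Q.toValuationSubring.nonunits := by
  intro hx
  apply nsm_const_notMem Q hκ
  have := sub_mem hx h
  rwa [sub_sub_cancel] at this

theorem nsm_unit_of_sub {x : Fk} {κ : k} (hκ : κ ≠ 0)
    (h : x - algebraMap k Fk κ ∈ Q.toValuationSubring.nonunits) : x ≠ 0 ∧ Q.ord x = 0 := by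
  have h1 := nsm_notMem_of_sub Q hκ h
  have h2 := nsm_ord_nonneg_of_sub Q h
  rw [nsm_mem_nonunits_iff] at h1
  push Not at h1
  refine ⟨h1.1, ?_⟩
  have := h1.2
  omega

end Generic

/-! ### the chart basics (helper84's B1-SPEC library) -/

/-- **The chart basics** used by (M2) : the charts lie in both Gauss rings, their elements have
values in `A` at the place, they contain the constants of `A`; the chart and the centre are
determined by a place of a component over the centre. -/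
structure NmBasics (M p : ℕ) [NeZero M] [NeZero p] (hcop : Nat.Coprime M p)
    (A : ValuationSubring Qb) : Prop where
  le_oo : ∀ P : Place Qb (FLb (M * p)), nmChart (M * p) A (nmY A P) ≤ gaussOBar (M * p) A
  le_zero : ∀ P : Place Qb (FLb (M * p)), nmChart (M * p) A (nmY A P) ≤ nmV0 M p hcop A
  val : ∀ P : Place Qb (FLb (M * p)), ∀ f ∈ nmChart (M * p) A (nmY A P),
    ∃ c ∈ A, HasValue P f c
  const : ∀ (P : Place Qb (FLb (M * p))) (c : Qb), c ∈ A →
    algebraMap Qb (FLb (M * p)) c ∈ nmChart (M * p) A (nmY A P)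
  chart_oo : ∀ (P P' : Place Qb (FLb (M * p))) (Q : Place (kRes A) (NmF (M * p) A)),
    NmSpecOo M p A (nmCentre A P) Q → NmSpecOo M p A (nmCentre A P') Q →
      nmY A P = nmY A P'
  chart_zero : ∀ (P P' : Place Qb (FLb (M * p))) (Q : Place (kRes A) (NmF (M * p) A)),
    NmSpecZero M p hcop A (nmCentre A P) Q → NmSpecZero M p hcop A (nmCentre A P') Q →
      nmY A P = nmY A P'
  centre_oo : ∀ (P P' : Place Qb (FLb (M * p))) (Q : Place (kRes A) (NmF (M * p) A)),
    NmSpecOo M p A (nmCentre A P) Q → NmSpecOo M p A (nmCentre A P') Q →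
      nmCentre A P = nmCentre A P'
  centre_zero : ∀ (P P' : Place Qb (FLb (M * p))) (Q : Place (kRes A) (NmF (M * p) A)),
    NmSpecZero M p hcop A (nmCentre A P) Q → NmSpecZero M p hcop A (nmCentre A P') Q →
      nmCentre A P = nmCentre A P'

variable {M p : ℕ} [NeZero M] [NeZero p] {A : ValuationSubring Qb}

theorem nsm_residue_ne_zero {c : Qb} (hc : c ∈ A) (hnu : c ∉ A.nonunits) :
    IsLocalRing.residue A ⟨c, hc⟩ ≠ 0 := by
  intro h0
  apply hnu
  rw [ValuationSubring.mem_nonunits_iff_exists_mem_maximalIdeal]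
  exact ⟨hc, (IsLocalRing.residue_eq_zero_iff _).mp h0⟩

theorem nsm_residue_eq_zero {c : Qb} (hc : c ∈ A) (hnu : c ∈ A.nonunits) :
    IsLocalRing.residue A ⟨c, hc⟩ = 0 := by
  obtain ⟨_, hm⟩ := ValuationSubring.mem_nonunits_iff_exists_mem_maximalIdeal.mp hnu
  exact (IsLocalRing.residue_eq_zero_iff _).mpr hm

/-- an element of the chart of `P` with value `0` at `P` lies in the centre -/
theorem nsm_mem_centre {P : Place Qb (FLb (M * p))} {f : FLb (M * p)}
    (hf : f ∈ nmChart (M * p) A (nmY A P)) (h0 : HasValue P f 0) : f ∈ nmCentre A P :=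
  ⟨hf, 0, A.nonunits.zero_mem, h0⟩

/-! ### the component `∞` -/

section Oo

/-- **key** : `red f ≡ f(P) mod 𝔪_Q` for `f` in the chart of `P`, `Q` over the centre of `P` -/
theorem nsm_key_oo (h : NmSetup M p A) (hSoft : NmSoftStatement M p)
    (hB : NmBasics M p h.cop A) {P : Place Qb (FLb (M * p))} {Q : Place (kRes A) (NmF (M * p) A)}
    (hspec : NmSpecOo M p A (nmCentre A P) Q) {f : FLb (M * p)}
    (hf : f ∈ nmChart (M * p) A (nmY A P)) {c : Qb} (hc : c ∈ A) (hval : HasValue P f c) :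
    nmRedOo (M * p) A ⟨f, hB.le_oo P hf⟩ -
      algebraMap (kRes A) (NmF (M * p) A) (IsLocalRing.residue A ⟨c, hc⟩) ∈
        Q.toValuationSubring.nonunits := by
  obtain ⟨s1, -, s3, -⟩ := hSoft A h
  have hcB := hB.const P c hc
  have hg : f - algebraMap Qb (FLb (M * p)) c ∈ nmChart (M * p) A (nmY A P) :=
    sub_mem hf hcB
  have hg0 : HasValue P (f - algebraMap Qb (FLb (M * p)) c) 0 := by
    have := nm_hasValue_sub P hval (nm_hasValue_const P c)
    rwa [sub_self] at this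
  have h1 := hspec _ (nsm_mem_centre hg hg0) (hB.le_oo P hg)
  have e : nmRedOo (M * p) A ⟨f - algebraMap Qb (FLb (M * p)) c, hB.le_oo P hg⟩ =
      nmRedOo (M * p) A ⟨f, hB.le_oo P hf⟩ -
        algebraMap (kRes A) (NmF (M * p) A) (IsLocalRing.residue A ⟨c, hc⟩) := by
    rw [← s3 ⟨c, hc⟩ ((s1 c).mpr hc), ← map_sub]
    rfl
  rw [e] at h1
  exact h1

theorem nsm_int_oo (h : NmSetup M p A) (hSoft : NmSoftStatement M p)
    (hB : NmBasics M p h.cop A) {P : Place Qb (FLb (M * p))} {Q : Place (kRes A) (NmF (M * p) A)}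
    (hspec : NmSpecOo M p A (nmCentre A P) Q) {f : FLb (M * p)}
    (hf : f ∈ nmChart (M * p) A (nmY A P)) :
    0 ≤ Q.ord (nmRedOo (M * p) A ⟨f, hB.le_oo P hf⟩) := by
  obtain ⟨c, hc, hval⟩ := hB.val P f hf
  exact nsm_ord_nonneg_of_sub Q (nsm_key_oo h hSoft hB hspec hf hc hval)

theorem nsm_unit_oo (h : NmSetup M p A) (hSoft : NmSoftStatement M p)
    (hB : NmBasics M p h.cop A) {P : Place Qb (FLb (M * p))} {Q : Place (kRes A) (NmF (M * p) A)}
    (hspec : NmSpecOo M p A (nmCentre A P) Q) {f : FLb (M * p)}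
    (hf : f ∈ nmChart (M * p) A (nmY A P)) (hM : f ∉ nmMax A P) :
    nmRedOo (M * p) A ⟨f, hB.le_oo P hf⟩ ≠ 0 ∧
      Q.ord (nmRedOo (M * p) A ⟨f, hB.le_oo P hf⟩) = 0 := by
  obtain ⟨c, hc, hval⟩ := hB.val P f hf
  have hnu : c ∉ A.nonunits := fun hcu => hM ⟨c, hcu, hval⟩
  exact nsm_unit_of_sub Q (nsm_residue_ne_zero hc hnu) (nsm_key_oo h hSoft hB hspec hf hc hval)

/-- an element of the chart whose reduction vanishes at `Q` has its value in `𝔪_A` -/
theorem nsm_max_oo (h : NmSetup M p A) (hSoft : NmSoftStatement M p)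
    (hB : NmBasics M p h.cop A) {P : Place Qb (FLb (M * p))} {Q : Place (kRes A) (NmF (M * p) A)}
    (hspec : NmSpecOo M p A (nmCentre A P) Q) {f : FLb (M * p)}
    (hf : f ∈ nmChart (M * p) A (nmY A P))
    (hred : nmRedOo (M * p) A ⟨f, hB.le_oo P hf⟩ ∈ Q.toValuationSubring.nonunits) :
    ∃ c ∈ A.nonunits, HasValue P f c := by
  obtain ⟨c, hc, hval⟩ := hB.val P f hf
  by_cases hnu : c ∈ A.nonunits
  · exact ⟨c, hnu, hval⟩
  · exact absurd hred (nsm_notMem_of_sub Q (nsm_residue_ne_zero hc hnu)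
      (nsm_key_oo h hSoft hB hspec hf hc hval))

/-- place form ⇒ ideal form -/
theorem nsm_ideal_oo (h : NmSetup M p A) (hSoft : NmSoftStatement M p)
    (hB : NmBasics M p h.cop A) {P : Place Qb (FLb (M * p))} {Q : Place (kRes A) (NmF (M * p) A)}
    (hspec : NmSpecOo M p A (nmCentre A P) Q) : NmIdealOo M p A P := by
  intro f hf hfV hred
  have e : nmRedOo (M * p) A ⟨f, hB.le_oo P hf⟩ = 0 := hred
  exact nsm_max_oo h hSoft hB hspec hf (by rw [e]; exact Q.toValuationSubring.nonunits.zero_mem)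

/-- uniqueness of the place over a centre -/
theorem nsm_unique_oo (h : NmSetup M p A) (hSoft : NmSoftStatement M p)
    (hB : NmBasics M p h.cop A) (hDvr : NmDvrOoStatement M p) {P : Place Qb (FLb (M * p))}
    {Q Q' : Place (kRes A) (NmF (M * p) A)}
    (hspec : NmSpecOo M p A (nmCentre A P) Q) (hspec' : NmSpecOo M p A (nmCentre A P) Q') :
    Q = Q' := by
  obtain ⟨Q₀, -, hloc⟩ := hDvr A h P (nsm_ideal_oo h hSoft hB hspec)
  have key : ∀ Q₁ : Place (kRes A) (NmF (M * p) A), NmSpecOo M p A (nmCentre A P) Q₁ →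
      Q₀ = Q₁ := by
    intro Q₁ hspec₁
    refine Fermat.Agent.H23.place_ext_of_ord Q₀ Q₁ (fun z hz => ?_)
    obtain ⟨f, s, hfV, hsV, hfB, hsB, hsM, e⟩ :=
      hloc z (Fermat.Agent.H23.mem_of_ord_nonneg Q₀ hz)
    by_cases hz0 : z = 0
    · rw [hz0, Place.ord_zero]
    obtain ⟨hs0, hsord⟩ := nsm_unit_oo h hSoft hB hspec₁ hsB hsM
    have h1 := nsm_int_oo h hSoft hB hspec₁ hfB
    have e' : nmRedOo (M * p) A ⟨f, hB.le_oo P hfB⟩ =
        z * nmRedOo (M * p) A ⟨s, hB.le_oo P hsB⟩ := e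
    rw [e', Q₁.ord_mul hz0 hs0, hsord, add_zero] at h1
    exact h1
  rw [← key Q hspec, ← key Q' hspec']

/-- **the local situation at a smooth point of `C_∞`** -/
theorem nsm_disc_oo (h : NmSetup M p A) (hSoft : NmSoftStatement M p)
    (hB : NmBasics M p h.cop A) (hHart : NmHartogsStatement M p) (hPG : NmPlaceGenStatement M p)
    (hDvr : NmDvrOoStatement M p) (hDvr0 : NmDvrZeroStatement M p)
    (P1 : Place Qb (FLb (M * p))) (Q : Place (kRes A) (NmF (M * p) A))
    (hspec : NmSpecOo M p A (nmCentre A P1) Q)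
    (hnz : ¬ NmOnZero M p h.cop A (nmCentre A P1)) :
    SmoothDiscAx (K := Qb) (gaussOBar (M * p) A) (nmRedOo (M * p) A)
      {P | nmCentre A P = nmCentre A P1} (nmChart (M * p) A (nmY A P1)) (nmMax A P1) Q := by
  obtain ⟨s1, -, s3, -, s5, -, s7, -⟩ := hSoft A h
  have hspecP : ∀ P, nmCentre A P = nmCentre A P1 → NmSpecOo M p A (nmCentre A P) Q :=
    fun P hP => by rw [hP]; exact hspec
  have hchart : ∀ P, nmCentre A P = nmCentre A P1 →
      nmChart (M * p) A (nmY A P) = nmChart (M * p) A (nmY A P1) :=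
    fun P hP => by rw [hB.chart_oo P P1 Q (hspecP P hP) hspec]
  have hnI0 : ¬ NmIdealZero M p h.cop A P1 := fun hI => by
    obtain ⟨Q', hQ', -⟩ := hDvr0 A h P1 hI
    exact hnz ⟨Q', hQ'⟩
  refine
    { le := hB.le_oo P1
      inv := s7
      norm := s5
      int := fun f hf => nsm_int_oo h hSoft hB hspec hf
      unit := fun s hs hsM => nsm_unit_oo h hSoft hB hspec hs hsM
      hart := ?_
      pg := ?_
      dvr := ?_
      reg := ?_
      val := ?_
      van := ?_ }
  · intro g hg hnp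
    exact hHart A h P1 g (fun _ => hg) (fun hI => absurd hI hnI0)
      (fun P' hP' => Or.inr (hnp P' hP'))
  · intro P hP
    obtain ⟨t, ht1, ht0⟩ := hPG A h P
    exact ⟨t, ht1, fun P' hP' hne => ht0 P' (by rw [hP']; exact hP.symm) hne⟩
  · intro z hz
    obtain ⟨Q₀, hQ₀, hloc⟩ := hDvr A h P1 (nsm_ideal_oo h hSoft hB hspec)
    have hQ : Q₀ = Q := nsm_unique_oo h hSoft hB hDvr hQ₀ hspec
    rw [hQ] at hloc
    obtain ⟨f, s, hfV, hsV, hfB, hsB, hsM, e⟩ :=
      hloc z (Fermat.Agent.H23.mem_of_ord_nonneg Q hz.le)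
    exact ⟨f, s, hfB, hsB, hsM, e⟩
  · intro P hP f hf
    rw [← hchart P hP] at hf
    obtain ⟨c, -, hval⟩ := hB.val P f hf
    exact Fermat.Agent.H94.FF.HasVal.ord_nonneg (P := P) hval
  · intro P hP f hf hpos
    have hf' : f ∈ nmChart (M * p) A (nmY A P) := by rw [hchart P hP]; exact hf
    obtain ⟨c, hcu, hval⟩ := nsm_max_oo h hSoft hB (hspecP P hP) hf'
      ((nsm_mem_nonunits_iff Q).mpr (Or.inr hpos))
    have hc : c ∈ A := ValuationSubring.nonunits_subset hcu
    refine ⟨c, (s1 c).mpr hc, hval, ?_⟩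
    rw [s3 ⟨c, hc⟩ ((s1 c).mpr hc), nsm_residue_eq_zero hc hcu, map_zero]
  · intro P hP f hf hpos
    have hf' : f ∈ nmChart (M * p) A (nmY A P) := by rw [hchart P hP]; exact hf
    have h0 : HasValue P f 0 := Or.inr (by rw [map_zero, sub_zero]; omega)
    have h1 := hspecP P hP f (nsm_mem_centre hf' h0) (hB.le_oo P1 hf)
    exact (nsm_mem_nonunits_iff Q).mp h1

/-- **(M2) on the component `∞`** -/
theorem nsm_smooth_oo (h : NmSetup M p A) (hSoft : NmSoftStatement M p)
    (hB : NmBasics M p h.cop A) (hHart : NmHartogsStatement M p)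
    (hPG : NmPlaceGenStatement M p) (hDvr : NmDvrOoStatement M p)
    (hDvr0 : NmDvrZeroStatement M p) (hSurj : NmSurjOoStatement M p)
    (htot : NmTot M p h.cop A) (u : gaussOBar (M * p) A) (hu : nmRedOo (M * p) A u ≠ 0)
    (D : Divisor Qb (FLb (M * p))) (hD : ∀ P, D P = P.ord (u : FLb (M * p)))
    (Q : Place (kRes A) (NmF (M * p) A)) (hQ : Q ∉ Set.range (nmNOo M p h.cop A)) :
    Finsupp.mapDomain (nmR htot) D (NPt.oo Q) = Q.ord (nmRedOo (M * p) A u) := by
  obtain ⟨P1, hspec⟩ := hSurj A h Q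
  have hnode : ¬ NmIsNode M p h.cop A (nmCentre A P1) := by
    intro hn
    apply hQ
    exact ⟨⟨nmCentre A P1, hn⟩,
      nsm_unique_oo h hSoft hB hDvr (nmNOo_spec M p h.cop A ⟨_, hn⟩) hspec⟩
  have hnz : ¬ NmOnZero M p h.cop A (nmCentre A P1) :=
    fun hz => hnode ⟨⟨P1, rfl⟩, ⟨Q, hspec⟩, hz⟩
  have Hd := nsm_disc_oo h hSoft hB hHart hPG hDvr hDvr0 P1 Q hspec hnz
  refine Hd.conservation (nmR htot) (NPt.oo Q) (fun P => ?_) u hu D hD
  show nmR htot P = NPt.oo Q ↔ nmCentre A P = nmCentre A P1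
  constructor
  · intro hr
    exact hB.centre_oo P P1 Q (nmR_oo htot P Q hr).2 hspec
  · intro hc
    have h1 : ¬ NmIsNode M p h.cop A (nmCentre A P) := by rw [hc]; exact hnode
    have h2 : NmOnOo M p A (nmCentre A P) := ⟨Q, by rw [hc]; exact hspec⟩
    rw [nmR, dif_neg h1, dif_pos h2]
    congr 1
    exact nsm_unique_oo h hSoft hB hDvr (Classical.choose_spec h2) (by rw [hc]; exact hspec)

end Oo

/-! ### the component `0` -/

section Zero

/-- **key** : `red f ≡ f(P) mod 𝔪_Q` for `f` in the chart of `P`, `Q` over the centre of `P` -/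
theorem nsm_key_zero (h : NmSetup M p A) (hSoft : NmSoftStatement M p)
    (hB : NmBasics M p h.cop A) {P : Place Qb (FLb (M * p))} {Q : Place (kRes A) (NmF (M * p) A)}
    (hspec : NmSpecZero M p h.cop A (nmCentre A P) Q) {f : FLb (M * p)}
    (hf : f ∈ nmChart (M * p) A (nmY A P)) {c : Qb} (hc : c ∈ A) (hval : HasValue P f c) :
    nmRed0 M p h.cop A ⟨f, hB.le_zero P hf⟩ -
      algebraMap (kRes A) (NmF (M * p) A) (IsLocalRing.residue A ⟨c, hc⟩) ∈
        Q.toValuationSubring.nonunits := by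
  obtain ⟨-, s1, -, s3, -⟩ := hSoft A h
  have hcB := hB.const P c hc
  have hg : f - algebraMap Qb (FLb (M * p)) c ∈ nmChart (M * p) A (nmY A P) :=
    sub_mem hf hcB
  have hg0 : HasValue P (f - algebraMap Qb (FLb (M * p)) c) 0 := by
    have := nm_hasValue_sub P hval (nm_hasValue_const P c)
    rwa [sub_self] at this
  have h1 := hspec _ (nsm_mem_centre hg hg0) (hB.le_zero P hg)
  have e : nmRed0 M p h.cop A ⟨f - algebraMap Qb (FLb (M * p)) c, hB.le_zero P hg⟩ =
      nmRed0 M p h.cop A ⟨f, hB.le_zero P hf⟩ -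
        algebraMap (kRes A) (NmF (M * p) A) (IsLocalRing.residue A ⟨c, hc⟩) := by
    rw [← s3 ⟨c, hc⟩ ((s1 c).mpr hc), ← map_sub]
    rfl
  rw [e] at h1
  exact h1

theorem nsm_int_zero (h : NmSetup M p A) (hSoft : NmSoftStatement M p)
    (hB : NmBasics M p h.cop A) {P : Place Qb (FLb (M * p))} {Q : Place (kRes A) (NmF (M * p) A)}
    (hspec : NmSpecZero M p h.cop A (nmCentre A P) Q) {f : FLb (M * p)}
    (hf : f ∈ nmChart (M * p) A (nmY A P)) :
    0 ≤ Q.ord (nmRed0 M p h.cop A ⟨f, hB.le_zero P hf⟩) := by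
  obtain ⟨c, hc, hval⟩ := hB.val P f hf
  exact nsm_ord_nonneg_of_sub Q (nsm_key_zero h hSoft hB hspec hf hc hval)

theorem nsm_unit_zero (h : NmSetup M p A) (hSoft : NmSoftStatement M p)
    (hB : NmBasics M p h.cop A) {P : Place Qb (FLb (M * p))} {Q : Place (kRes A) (NmF (M * p) A)}
    (hspec : NmSpecZero M p h.cop A (nmCentre A P) Q) {f : FLb (M * p)}
    (hf : f ∈ nmChart (M * p) A (nmY A P)) (hM : f ∉ nmMax A P) :
    nmRed0 M p h.cop A ⟨f, hB.le_zero P hf⟩ ≠ 0 ∧
      Q.ord (nmRed0 M p h.cop A ⟨f, hB.le_zero P hf⟩) = 0 := by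
  obtain ⟨c, hc, hval⟩ := hB.val P f hf
  have hnu : c ∉ A.nonunits := fun hcu => hM ⟨c, hcu, hval⟩
  exact nsm_unit_of_sub Q (nsm_residue_ne_zero hc hnu) (nsm_key_zero h hSoft hB hspec hf hc hval)

/-- an element of the chart whose reduction vanishes at `Q` has its value in `𝔪_A` -/
theorem nsm_max_zero (h : NmSetup M p A) (hSoft : NmSoftStatement M p)
    (hB : NmBasics M p h.cop A) {P : Place Qb (FLb (M * p))} {Q : Place (kRes A) (NmF (M * p) A)}
    (hspec : NmSpecZero M p h.cop A (nmCentre A P) Q) {f : FLb (M * p)}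
    (hf : f ∈ nmChart (M * p) A (nmY A P))
    (hred : nmRed0 M p h.cop A ⟨f, hB.le_zero P hf⟩ ∈ Q.toValuationSubring.nonunits) :
    ∃ c ∈ A.nonunits, HasValue P f c := by
  obtain ⟨c, hc, hval⟩ := hB.val P f hf
  by_cases hnu : c ∈ A.nonunits
  · exact ⟨c, hnu, hval⟩
  · exact absurd hred (nsm_notMem_of_sub Q (nsm_residue_ne_zero hc hnu)
      (nsm_key_zero h hSoft hB hspec hf hc hval))

/-- place form ⇒ ideal form -/
theorem nsm_ideal_zero (h : NmSetup M p A) (hSoft : NmSoftStatement M p)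
    (hB : NmBasics M p h.cop A) {P : Place Qb (FLb (M * p))} {Q : Place (kRes A) (NmF (M * p) A)}
    (hspec : NmSpecZero M p h.cop A (nmCentre A P) Q) : NmIdealZero M p h.cop A P := by
  intro f hf hfV hred
  have e : nmRed0 M p h.cop A ⟨f, hB.le_zero P hf⟩ = 0 := hred
  exact nsm_max_zero h hSoft hB hspec hf (by rw [e]; exact Q.toValuationSubring.nonunits.zero_mem)

/-- uniqueness of the place over a centre -/
theorem nsm_unique_zero (h : NmSetup M p A) (hSoft : NmSoftStatement M p)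
    (hB : NmBasics M p h.cop A) (hDvr : NmDvrZeroStatement M p) {P : Place Qb (FLb (M * p))}
    {Q Q' : Place (kRes A) (NmF (M * p) A)}
    (hspec : NmSpecZero M p h.cop A (nmCentre A P) Q) (hspec' : NmSpecZero M p h.cop A (nmCentre A P) Q') :
    Q = Q' := by
  obtain ⟨Q₀, -, hloc⟩ := hDvr A h P (nsm_ideal_zero h hSoft hB hspec)
  have key : ∀ Q₁ : Place (kRes A) (NmF (M * p) A), NmSpecZero M p h.cop A (nmCentre A P) Q₁ →
      Q₀ = Q₁ := by
    intro Q₁ hspec₁
    refine Fermat.Agent.H23.place_ext_of_ord Q₀ Q₁ (fun z hz => ?_)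
    obtain ⟨f, s, hfV, hsV, hfB, hsB, hsM, e⟩ :=
      hloc z (Fermat.Agent.H23.mem_of_ord_nonneg Q₀ hz)
    by_cases hz0 : z = 0
    · rw [hz0, Place.ord_zero]
    obtain ⟨hs0, hsord⟩ := nsm_unit_zero h hSoft hB hspec₁ hsB hsM
    have h1 := nsm_int_zero h hSoft hB hspec₁ hfB
    have e' : nmRed0 M p h.cop A ⟨f, hB.le_zero P hfB⟩ =
        z * nmRed0 M p h.cop A ⟨s, hB.le_zero P hsB⟩ := e
    rw [e', Q₁.ord_mul hz0 hs0, hsord, add_zero] at h1
    exact h1
  rw [← key Q hspec, ← key Q' hspec']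

/-- **the local situation at a smooth point of `C_0`** -/
theorem nsm_disc_zero (h : NmSetup M p A) (hSoft : NmSoftStatement M p)
    (hB : NmBasics M p h.cop A) (hHart : NmHartogsStatement M p) (hPG : NmPlaceGenStatement M p)
    (hDvr : NmDvrZeroStatement M p) (hDvr0 : NmDvrOoStatement M p)
    (P1 : Place Qb (FLb (M * p))) (Q : Place (kRes A) (NmF (M * p) A))
    (hspec : NmSpecZero M p h.cop A (nmCentre A P1) Q)
    (hnz : ¬ NmOnOo M p A (nmCentre A P1)) :
    SmoothDiscAx (K := Qb) (nmV0 M p h.cop A) (nmRed0 M p h.cop A)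
      {P | nmCentre A P = nmCentre A P1} (nmChart (M * p) A (nmY A P1)) (nmMax A P1) Q := by
  obtain ⟨-, s1, -, s3, -, s5, -, s7, -⟩ := hSoft A h
  have hspecP : ∀ P, nmCentre A P = nmCentre A P1 → NmSpecZero M p h.cop A (nmCentre A P) Q :=
    fun P hP => by rw [hP]; exact hspec
  have hchart : ∀ P, nmCentre A P = nmCentre A P1 →
      nmChart (M * p) A (nmY A P) = nmChart (M * p) A (nmY A P1) :=
    fun P hP => by rw [hB.chart_zero P P1 Q (hspecP P hP) hspec]
  have hnI0 : ¬ NmIdealOo M p A P1 := fun hI => by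
    obtain ⟨Q', hQ', -⟩ := hDvr0 A h P1 hI
    exact hnz ⟨Q', hQ'⟩
  refine
    { le := hB.le_zero P1
      inv := s7
      norm := s5
      int := fun f hf => nsm_int_zero h hSoft hB hspec hf
      unit := fun s hs hsM => nsm_unit_zero h hSoft hB hspec hs hsM
      hart := ?_
      pg := ?_
      dvr := ?_
      reg := ?_
      val := ?_
      van := ?_ }
  · intro g hg hnp
    exact hHart A h P1 g (fun hI => absurd hI hnI0) (fun _ => hg)
      (fun P' hP' => Or.inr (hnp P' hP'))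
  · intro P hP
    obtain ⟨t, ht1, ht0⟩ := hPG A h P
    exact ⟨t, ht1, fun P' hP' hne => ht0 P' (by rw [hP']; exact hP.symm) hne⟩
  · intro z hz
    obtain ⟨Q₀, hQ₀, hloc⟩ := hDvr A h P1 (nsm_ideal_zero h hSoft hB hspec)
    have hQ : Q₀ = Q := nsm_unique_zero h hSoft hB hDvr hQ₀ hspec
    rw [hQ] at hloc
    obtain ⟨f, s, hfV, hsV, hfB, hsB, hsM, e⟩ :=
      hloc z (Fermat.Agent.H23.mem_of_ord_nonneg Q hz.le)
    exact ⟨f, s, hfB, hsB, hsM, e⟩
  · intro P hP f hf
    rw [← hchart P hP] at hf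
    obtain ⟨c, -, hval⟩ := hB.val P f hf
    exact Fermat.Agent.H94.FF.HasVal.ord_nonneg (P := P) hval
  · intro P hP f hf hpos
    have hf' : f ∈ nmChart (M * p) A (nmY A P) := by rw [hchart P hP]; exact hf
    obtain ⟨c, hcu, hval⟩ := nsm_max_zero h hSoft hB (hspecP P hP) hf'
      ((nsm_mem_nonunits_iff Q).mpr (Or.inr hpos))
    have hc : c ∈ A := ValuationSubring.nonunits_subset hcu
    refine ⟨c, (s1 c).mpr hc, hval, ?_⟩
    rw [s3 ⟨c, hc⟩ ((s1 c).mpr hc), nsm_residue_eq_zero hc hcu, map_zero]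
  · intro P hP f hf hpos
    have hf' : f ∈ nmChart (M * p) A (nmY A P) := by rw [hchart P hP]; exact hf
    have h0 : HasValue P f 0 := Or.inr (by rw [map_zero, sub_zero]; omega)
    have h1 := hspecP P hP f (nsm_mem_centre hf' h0) (hB.le_zero P1 hf)
    exact (nsm_mem_nonunits_iff Q).mp h1

/-- **(M2) on the component `∞`** -/
theorem nsm_smooth_zero (h : NmSetup M p A) (hSoft : NmSoftStatement M p)
    (hB : NmBasics M p h.cop A) (hHart : NmHartogsStatement M p)
    (hPG : NmPlaceGenStatement M p) (hDvr : NmDvrZeroStatement M p)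
    (hDvr0 : NmDvrOoStatement M p) (hSurj : NmSurjZeroStatement M p)
    (htot : NmTot M p h.cop A) (u : nmV0 M p h.cop A) (hu : nmRed0 M p h.cop A u ≠ 0)
    (D : Divisor Qb (FLb (M * p))) (hD : ∀ P, D P = P.ord (u : FLb (M * p)))
    (Q : Place (kRes A) (NmF (M * p) A)) (hQ : Q ∉ Set.range (nmN0 M p h.cop A)) :
    Finsupp.mapDomain (nmR htot) D (NPt.zero Q) = Q.ord (nmRed0 M p h.cop A u) := by
  obtain ⟨P1, hspec⟩ := hSurj A h Q
  have hnode : ¬ NmIsNode M p h.cop A (nmCentre A P1) := by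
    intro hn
    apply hQ
    exact ⟨⟨nmCentre A P1, hn⟩,
      nsm_unique_zero h hSoft hB hDvr (nmN0_spec M p h.cop A ⟨_, hn⟩) hspec⟩
  have hnz : ¬ NmOnOo M p A (nmCentre A P1) :=
    fun hz => hnode ⟨⟨P1, rfl⟩, hz, ⟨Q, hspec⟩⟩
  have Hd := nsm_disc_zero h hSoft hB hHart hPG hDvr hDvr0 P1 Q hspec hnz
  refine Hd.conservation (nmR htot) (NPt.zero Q) (fun P => ?_) u hu D hD
  show nmR htot P = NPt.zero Q ↔ nmCentre A P = nmCentre A P1
  constructor
  · intro hr
    exact hB.centre_zero P P1 Q (nmR_zero htot P Q hr).2 hspec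
  · intro hc
    have h1 : ¬ NmIsNode M p h.cop A (nmCentre A P) := by rw [hc]; exact hnode
    have h2 : ¬ NmOnOo M p A (nmCentre A P) := by rw [hc]; exact hnz
    rw [nmR, dif_neg h1, dif_neg h2]
    congr 1
    exact nsm_unique_zero h hSoft hB hDvr (Classical.choose_spec ((htot P).resolve_left h2))
      (by rw [hc]; exact hspec)

end Zero

/-! ### the row -/

/-- **B1-M2 from the chart basics.** -/
theorem nmSmooth_of_basics (hBas : ∀ (A : ValuationSubring Qb) (h : NmSetup M p A),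
      NmBasics M p h.cop A)
    (hHart : NmHartogsStatement M p) (hPG : NmPlaceGenStatement M p)
    (hDvr : NmDvrOoStatement M p) (hDvr0 : NmDvrZeroStatement M p)
    (hSurj : NmSurjOoStatement M p) (hSurj0 : NmSurjZeroStatement M p)
    (hSoft : NmSoftStatement M p) : NmSmoothStatement M p := by
  intro A h htot
  refine ⟨fun u hu D hD Q hQ => ?_, fun w hw D hD Q hQ => ?_⟩
  · exact nsm_smooth_oo h hSoft (hBas A h) hHart hPG hDvr hDvr0 hSurj htot u hu D hD Q hQ
  · exact nsm_smooth_zero h hSoft (hBas A h) hHart hPG hDvr0 hDvr hSurj0 htot w hw D hD Q hQ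

end Fermat.Agent.H56.ORD
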