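/-
P-ORD block B1, row B1-M2 (helper56): `nmSmooth`, the conservation law (M2) at the smooth points
for the nodal data `nmG` of `X₀(M p)`, from the local API ([HART], [PG], [DVR], [SURJ]) and the
soft fields.  (The chart basics come from helper84's B1-SPEC library.)
-/
import Fermat.Agent.H84.ORD.NodalSpecFinal
import Fermat.Agent.H56.ORD.NmSmooth

set_option autoImplicit false
set_option synthInstance.maxHeartbeats 400000
set_option linter.style.haveILetI false
set_option linter.unusedSectionVars false

noncomputable section

open AlgebraicCurve ModularCurve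

namespace Fermat.Agent.H56.ORD

open Fermat.Agent.H72.FF Fermat.Agent.H18.ORD Fermat.Agent.H66 Fermat.Agent.H27.ESD
  Fermat.Agent.H84.ORD

variable {M p : ℕ} [NeZero M] [NeZero p] {A : ValuationSubring Qb}

/-- the chart basics from helper84's library -/
theorem nmBasics_of_base (H : NmBase M p A) : NmBasics M p H.setup.cop A where
  le_oo := fun P _ hf => H.chart_le_oo P hf
  le_zero := fun P _ hf => H.chart_le_zero P hf
  val := fun P _ hf => nmChart_value P (H.deg P) hf
  const := fun P _ hc => algebraMap_mem_nmChart A (nmY A P) hc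
  chart_oo := fun P P' _ hQ hQ' => H.oo.chart_eq_of_spec P P' hQ hQ'
  chart_zero := fun P P' _ hQ hQ' => H.zero.chart_eq_of_spec P P' hQ hQ'
  centre_oo := fun _ _ _ hQ hQ' => H.centre_eq_of_specOo hQ hQ'
  centre_zero := fun _ _ _ hQ hQ' => H.centre_eq_of_specZero hQ hQ'

/-- **Row B1-M2** : the conservation law at the smooth points of the special fibre of
`X₀(M p)`. -/
theorem nmSmooth (M p : ℕ) [NeZero M] [NeZero p] :
    NmHartogsStatement M p → NmPlaceGenStatement M p → NmTotIdealStatement M p →
    NmDvrOoStatement M p → NmDvrZeroStatement M p → NmSurjOoStatement M p →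
    NmSurjZeroStatement M p → NmSoftStatement M p → NmSmoothStatement M p :=
  fun hHart hPG _ hDvr hDvr0 hSurj hSurj0 hSoft =>
    nmSmooth_of_basics (fun _ h => nmBasics_of_base (nmBase_of_soft hSoft h))
      hHart hPG hDvr hDvr0 hSurj hSurj0 hSoft

end Fermat.Agent.H56.ORD
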